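/-
DELTA / I6, package (O), part (O3) (helper3): **Deligne–Serre from a mod-`p` eigen-series**.

If a nonzero Laurent series `φ` over the residue field `κ` of `𝔓` lies in the `κ`-span of the
coefficientwise reductions of the integral weight-2 cusp forms of level `M`, and is an eigenvector of
the formal Hecke operators `dlsT ℓ` (for `ℓ` in a set `𝓛` of primes not dividing `M`) with eigenvalues
`a ℓ`, then there is a normalised eigenform `g` of level `M` and a maximal ideal `𝔪 ∋ p` of `ℤ̄` with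
`a_ℓ(g) ≡ a ℓ (mod 𝔪)` for all `ℓ ∈ 𝓛`.

* `dle_coeffZ_hecke` : integer coefficients of `T_ℓ g` on the lattice;
* `dle_red_hecke`    : coefficientwise reduction intertwines `T_ℓ` with `dlsT ℓ`;
* `dleLift`          : `κ ⊗ L → κ((q))`, injective (`dleLift_injective`) and Hecke-equivariant
                       (`dleLift_hecke`);
* `dle_ds`           : the statement above.
-/
import Mathlib
import Fermat.Agent.Lib.Delta.Lift.Indep
import Fermat.Agent.Lib.Delta.Slope.Tilde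
import Fermat.Agent.Lib.LR.Wire.Back
import Fermat.Agent.Lib.ES.DimUpper

set_option autoImplicit false
set_option linter.unusedSectionVars false
set_option linter.unusedVariables false
set_option linter.style.haveILetI false
set_option synthInstance.maxHeartbeats 400000

namespace Fermat.Agent.Delta

open ModularCurve HahnSeries Fermat.Agent.T1 Fermat.Agent.TW
  ModularFormClass CongruenceSubgroup Fermat.Agent.Lib.Helper8 Module
open scoped TensorProduct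

noncomputable section

variable (M : ℕ) [NeZero M]

local notation "𝕋" => CuspForm.heckeAlgebra M 2 (∅ : Set ℕ)
set_option quotPrecheck false in
local notation "𝕃" => ↥(CuspForm.intLattice M 2)

/-- the Hecke operator `T_ℓ` on the integral lattice -/
def dleHeckeZ {ℓ : ℕ} (hℓ : ℓ.Prime) (hℓM : ¬ ℓ ∣ M) : Module.End ℤ 𝕃 :=
  CuspForm.latticeActionHom M (∅ : Set ℕ) (CuspForm.heckeAlgebra.T hℓ hℓM (Set.notMem_empty ℓ))

theorem dleHeckeZ_coe {ℓ : ℕ} (hℓ : ℓ.Prime) (hℓM : ¬ ℓ ∣ M) (g : 𝕃) :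
    ((dleHeckeZ M hℓ hℓM g : 𝕃) : CuspForm (Gamma0 M) 2) =
      CuspForm.heckeTLin 2 hℓ hℓM (g : CuspForm (Gamma0 M) 2) := rfl

/-- integer coefficients of `T_ℓ g` -/
theorem dle_coeffZ_hecke {ℓ : ℕ} (hℓ : ℓ.Prime) (hℓM : ¬ ℓ ∣ M) (g : 𝕃) (n : ℕ) :
    dllCoeffZ M ((dleHeckeZ M hℓ hℓM g : 𝕃) : CuspForm (Gamma0 M) 2) n =
      dllCoeffZ M (g : CuspForm (Gamma0 M) 2) (n * ℓ) +
        if ℓ ∣ n then (ℓ : ℤ) * dllCoeffZ M (g : CuspForm (Gamma0 M) 2) (n / ℓ) else 0 := by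
  apply dllCoeffZ_eq
  rw [dleHeckeZ_coe, h8_qCoeff_heckeTLin, dllCoeffZ_spec M g.2, dllCoeffZ_spec M g.2]
  split_ifs with h
  · push_cast
    norm_num
  · push_cast
    ring

/-- coefficientwise reduction intertwines `T_ℓ` with the formal `dlsT ℓ` -/
theorem dle_red_hecke (R : Type*) [CommRing R] {ℓ : ℕ} [NeZero ℓ] (hℓ : ℓ.Prime) (hℓM : ¬ ℓ ∣ M)
    (g : 𝕃) : dllRedZ M R (dleHeckeZ M hℓ hℓM g) = dlsT ℓ (dllRedZ M R g) := by
  have hℓ0 : (0 : ℤ) < (ℓ : ℤ) := by exact_mod_cast hℓ.pos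
  ext n
  rw [dlsT_coeff]
  by_cases hn : 0 ≤ n
  · obtain ⟨m, rfl⟩ := Int.eq_ofNat_of_zero_le hn
    rw [dllRedZ_coeff_nat, dle_coeffZ_hecke]
    have e1 : ((ℓ : ℤ) * (m : ℤ)) = ((m * ℓ : ℕ) : ℤ) := by push_cast; ring
    rw [e1, dllRedZ_coeff_nat]
    by_cases hd : ℓ ∣ m
    · have hd' : (ℓ : ℤ) ∣ (m : ℤ) := by exact_mod_cast hd
      have e2 : ((m : ℤ) / (ℓ : ℤ)) = ((m / ℓ : ℕ) : ℤ) := by push_cast; rfl
      rw [if_pos hd, if_pos hd', e2, dllRedZ_coeff_nat]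
      push_cast
      ring
    · have hd' : ¬ (ℓ : ℤ) ∣ (m : ℤ) := by exact_mod_cast hd
      rw [if_neg hd, if_neg hd']
      push_cast
      ring
  · have hn' : n < 0 := not_le.mp hn
    have h1 : (ℓ : ℤ) * n < 0 := mul_neg_of_pos_of_neg hℓ0 hn'
    rw [dllRedZ_coeff_neg M R _ hn', dllRedZ_coeff_neg M R _ h1]
    split_ifs with hd
    · have h2 : n / (ℓ : ℤ) < 0 := Int.ediv_neg_of_neg_of_pos hn' hℓ0
      rw [dllRedZ_coeff_neg M R _ h2, mul_zero, add_zero]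
    · rw [mul_zero, add_zero]

variable (k : Type*) [Field k]

/-- independence of the reductions of a `ℤ`-basis over any field of characteristic `p` -/
theorem dll_indep_field (p : ℕ) [Fact p.Prime] [CharP k p] {ι : Type*} [Fintype ι]
    (b : Basis ι ℤ 𝕃) : LinearIndependent k (fun i => dllRedZ M k (b i)) := by
  have h1 := Fermat.Agent.ES.linearIndependent_coeffMap_ringHom
    (ZMod.castHom (dvd_refl p) k) _ (dll_indep_zmod M (p := p) b)
  have h2 : (fun i => coeffMap (ZMod.castHom (dvd_refl p) k)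
      (dllRedZ M (ZMod p) (b i))) = fun i => dllRedZ M k (b i) := by
    funext i
    rw [dll_coeffMap_redZ]
  rwa [h2] at h1

/-- the `k`-linear extension of the coefficientwise reduction -/
def dleLift : k ⊗[ℤ] 𝕃 →ₗ[k] LaurentSeries k :=
  LinearMap.liftBaseChange k (dllRedZ M k)

theorem dleLift_tmul (c : k) (g : 𝕃) :
    dleLift M k (c ⊗ₜ[ℤ] g) = c • dllRedZ M k g := rfl

theorem dleLift_injective (p : ℕ) [Fact p.Prime] [CharP k p] :
    Function.Injective (dleLift M k) := by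
  classical
  haveI := CuspForm.intLattice.moduleFinite M
  haveI := CuspForm.intLattice.moduleFree M
  let b := Module.Free.chooseBasis ℤ 𝕃
  let B := Algebra.TensorProduct.basis k b
  have hli := dll_indep_field M k p b
  rw [Fintype.linearIndependent_iff] at hli
  rw [injective_iff_map_eq_zero]
  intro x hx
  have hx' : x = ∑ i, B.repr x i • B i := (B.sum_repr x).symm
  rw [hx', map_sum] at hx
  have h2 : ∀ i, B.repr x i = 0 := by
    apply hli
    rw [← hx]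
    refine Finset.sum_congr rfl (fun i _ => ?_)
    rw [map_smul, Algebra.TensorProduct.basis_apply, dleLift_tmul, one_smul]
  rw [hx']
  exact Finset.sum_eq_zero (fun i _ => by rw [h2 i, zero_smul])

/-- the range of `dleLift` is the span of the reduced forms -/
theorem dleLift_range : LinearMap.range (dleLift M k) =
    Submodule.span k (Set.range (dllRedZ M k)) := by
  apply le_antisymm
  · rintro _ ⟨x, rfl⟩
    induction x using TensorProduct.induction_on with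
    | zero => rw [map_zero]; exact Submodule.zero_mem _
    | tmul c g =>
      rw [dleLift_tmul]
      exact Submodule.smul_mem _ _ (Submodule.subset_span ⟨g, rfl⟩)
    | add x y hx hy => rw [map_add]; exact Submodule.add_mem _ hx hy
  · apply Submodule.span_le.mpr
    rintro _ ⟨g, rfl⟩
    exact ⟨1 ⊗ₜ[ℤ] g, by rw [dleLift_tmul, one_smul]⟩

/-- Hecke-equivariance of `dleLift` -/
theorem dleLift_hecke {ℓ : ℕ} [NeZero ℓ] (hℓ : ℓ.Prime) (hℓM : ¬ ℓ ∣ M) (x : k ⊗[ℤ] 𝕃) :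
    dleLift M k ((dleHeckeZ M hℓ hℓM).baseChange k x) = dlsT ℓ (dleLift M k x) := by
  induction x using TensorProduct.induction_on with
  | zero => rw [map_zero, map_zero, dlsT_zero]
  | tmul c g =>
    rw [LinearMap.baseChange_tmul, dleLift_tmul, dleLift_tmul, dle_red_hecke,
      ← HahnSeries.C_mul_eq_smul, ← HahnSeries.C_mul_eq_smul, dlsT_C_mul]
  | add x y hx hy => rw [map_add (dleLift M k) x y, dlsT_add, ← hx, ← hy, map_add, map_add]

/-- the ideal of Hecke operators killing `x₀` -/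
def dleJ (x₀ : k ⊗[ℤ] 𝕃) : Ideal 𝕋 where
  carrier := {t | (CuspForm.latticeActionHom M (∅ : Set ℕ) t).baseChange k x₀ = 0}
  add_mem' := by
    intro s t hs ht
    show (LinearMap.baseChange k (CuspForm.latticeActionHom M (∅ : Set ℕ) (s + t))) x₀ = 0
    rw [map_add, LinearMap.baseChange_add, LinearMap.add_apply]
    rw [show (LinearMap.baseChange k (CuspForm.latticeActionHom M (∅ : Set ℕ) s)) x₀ = 0 from hs,
      show (LinearMap.baseChange k (CuspForm.latticeActionHom M (∅ : Set ℕ) t)) x₀ = 0 from ht,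
      add_zero]
  zero_mem' := by
    show (LinearMap.baseChange k (CuspForm.latticeActionHom M (∅ : Set ℕ) 0)) x₀ = 0
    rw [map_zero, LinearMap.baseChange_zero, LinearMap.zero_apply]
  smul_mem' := by
    intro s t ht
    show (LinearMap.baseChange k (CuspForm.latticeActionHom M (∅ : Set ℕ) (s • t))) x₀ = 0
    rw [smul_eq_mul, map_mul, LinearMap.baseChange_mul, Module.End.mul_apply,
      show (LinearMap.baseChange k (CuspForm.latticeActionHom M (∅ : Set ℕ) t)) x₀ = 0 from ht,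
      map_zero]

theorem dle_mem_J (x₀ : k ⊗[ℤ] 𝕃) (t : 𝕋) : t ∈ dleJ M k x₀ ↔
    (CuspForm.latticeActionHom M (∅ : Set ℕ) t).baseChange k x₀ = 0 := Iff.rfl

/-- integer scalars in the Hecke algebra act as scalars on `k ⊗ L` -/
theorem dle_intCast_baseChange (n : ℤ) (x : k ⊗[ℤ] 𝕃) :
    (CuspForm.latticeActionHom M (∅ : Set ℕ) ((n : ℤ) : 𝕋)).baseChange k x = n • x := by
  rw [map_intCast, ← zsmul_one (n : ℤ), LinearMap.baseChange_smul, LinearMap.smul_apply,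
    LinearMap.baseChange_one, Module.End.one_apply]

/-- **Deligne–Serre from a mod-`p` eigen-series**, over any field of characteristic `p`. -/
theorem dle_ds_field (p : ℕ) [Fact p.Prime] [CharP k p] (𝓛 : Set ℕ)
    (h𝓛 : ∀ ℓ ∈ 𝓛, ℓ.Prime ∧ ¬ ℓ ∣ M) (a : ℕ → ℤ) (φ : LaurentSeries k) (hφ0 : φ ≠ 0)
    (hφ : φ ∈ Submodule.span k (Set.range (dllRedZ M k)))
    (heig : ∀ (ℓ : ℕ) [NeZero ℓ], ℓ ∈ 𝓛 → dlsT ℓ φ = HahnSeries.C ((a ℓ : ℤ) : k) * φ) :
    ∃ (g : CuspForm (Gamma0 M) 2) (𝔪 : Ideal (integralClosure ℤ ℂ)),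
      g.IsNormalizedEigenform ∧ 𝔪.IsMaximal ∧ (p : integralClosure ℤ ℂ) ∈ 𝔪 ∧
      ∀ ℓ ∈ 𝓛, ∃ c : integralClosure ℤ ℂ, (c : ℂ) = qCoeff g ℓ ∧
        c - ((a ℓ : ℤ) : integralClosure ℤ ℂ) ∈ 𝔪 := by
  classical
  haveI : Module.Finite ℤ 𝕋 := Fermat.Agent.S22Lib.moduleFinite_heckeAlgebra M 2 ∅
  -- lift `φ`
  obtain ⟨x₀, hx₀⟩ : ∃ x₀, dleLift M k x₀ = φ := by
    have h1 : φ ∈ LinearMap.range (dleLift M k) := by rw [dleLift_range]; exact hφ
    exact h1
  have hx₀0 : x₀ ≠ 0 := by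
    rintro rfl
    exact hφ0 (by rw [← hx₀, map_zero])
  have hJtop : dleJ M k x₀ ≠ ⊤ := by
    intro h
    have h1 : (1 : 𝕋) ∈ dleJ M k x₀ := by rw [h]; trivial
    rw [dle_mem_J, map_one, LinearMap.baseChange_one, Module.End.one_apply] at h1
    exact hx₀0 h1
  obtain ⟨𝔪₁, h𝔪₁, hJ𝔪₁⟩ := Ideal.exists_le_maximal _ hJtop
  haveI := h𝔪₁
  obtain ⟨w, χ, 𝔪', hw0, hχ, h𝔪', hcomap⟩ :=
    exists_eigen_character_lifting (V := CuspForm (Gamma0 M) 2)
      ((Subalgebra.val 𝕋 : 𝕋 →ₐ[ℤ] Module.End ℂ (CuspForm (Gamma0 M) 2)) :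
        𝕋 →+* Module.End ℂ (CuspForm (Gamma0 M) 2)) Subtype.val_injective 𝔪₁
  obtain ⟨g, hg, hgT, -⟩ := Fermat.Agent.LR.lrw_exists_normalized w hw0
    (fun t => ((χ t : integralClosure ℤ ℂ) : ℂ)) (fun t => hχ t)
  refine ⟨g, 𝔪', hg, h𝔪', ?_, ?_⟩
  · -- `p ∈ 𝔪'`
    have hpJ : (((p : ℕ) : ℤ) : 𝕋) ∈ dleJ M k x₀ := by
      rw [dle_mem_J, dle_intCast_baseChange, ← Int.cast_smul_eq_zsmul k, Int.cast_natCast,
        CharP.cast_eq_zero, zero_smul]
    have h1 := hJ𝔪₁ hpJ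
    rw [← hcomap, Ideal.mem_comap, map_intCast, Int.cast_natCast] at h1
    exact h1
  · intro ℓ hℓ𝓛
    obtain ⟨hℓ, hℓM⟩ := h𝓛 ℓ hℓ𝓛
    haveI : NeZero ℓ := ⟨hℓ.ne_zero⟩
    refine ⟨χ (CuspForm.heckeAlgebra.T hℓ hℓM (Set.notMem_empty ℓ)), (hgT ℓ hℓ hℓM).symm, ?_⟩
    have hmem : CuspForm.heckeAlgebra.T hℓ hℓM (Set.notMem_empty ℓ) - ((a ℓ : ℤ) : 𝕋) ∈
        dleJ M k x₀ := by
      rw [dle_mem_J]
      apply dleLift_injective M k p
      rw [map_zero, map_sub, LinearMap.baseChange_sub, LinearMap.sub_apply, map_sub,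
        dle_intCast_baseChange]
      have e1 : dleLift M k ((CuspForm.latticeActionHom M (∅ : Set ℕ)
          (CuspForm.heckeAlgebra.T hℓ hℓM (Set.notMem_empty ℓ))).baseChange k x₀) = dlsT ℓ φ := by
        rw [← hx₀]
        exact dleLift_hecke M k hℓ hℓM x₀
      rw [e1, map_zsmul, hx₀, heig ℓ hℓ𝓛, HahnSeries.C_mul_eq_smul, Int.cast_smul_eq_zsmul,
        sub_self]
    have hmem' := hJ𝔪₁ hmem
    rw [← hcomap, Ideal.mem_comap, map_sub, map_intCast] at hmem'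
    exact hmem'

variable (𝔓 : FFPlace)

/-- **Deligne–Serre from a mod-`p` eigen-series** in the span of the reduced cusp forms. -/
theorem dle_ds (𝓛 : Set ℕ) (h𝓛 : ∀ ℓ ∈ 𝓛, ℓ.Prime ∧ ¬ ℓ ∣ M) (a : ℕ → ℤ)
    (φ : LaurentSeries (IsLocalRing.ResidueField ↥𝔓.P)) (hφ0 : φ ≠ 0)
    (hφ : φ ∈ Submodule.span (IsLocalRing.ResidueField ↥𝔓.P)
      (Set.range fun g : 𝕃 => dleRedForm 𝔓 M (g : CuspForm (Gamma0 M) 2)))
    (heig : ∀ (ℓ : ℕ) [NeZero ℓ], ℓ ∈ 𝓛 →
      dlsT ℓ φ = HahnSeries.C ((a ℓ : ℤ) : IsLocalRing.ResidueField ↥𝔓.P) * φ) :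
    ∃ (g : CuspForm (Gamma0 M) 2) (𝔪 : Ideal (integralClosure ℤ ℂ)),
      g.IsNormalizedEigenform ∧ 𝔪.IsMaximal ∧ (𝔓.p : integralClosure ℤ ℂ) ∈ 𝔪 ∧
      ∀ ℓ ∈ 𝓛, ∃ c : integralClosure ℤ ℂ, (c : ℂ) = qCoeff g ℓ ∧
        c - ((a ℓ : ℤ) : integralClosure ℤ ℂ) ∈ 𝔪 := by
  haveI : Fact 𝔓.p.Prime := ⟨𝔓.hp⟩
  haveI : CharP (IsLocalRing.ResidueField ↥𝔓.P) 𝔓.p := tkr_charP_residue 𝔓.hp 𝔓.hP
  exact dle_ds_field M (IsLocalRing.ResidueField ↥𝔓.P) 𝔓.p 𝓛 h𝓛 a φ hφ0 hφ heig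

end

end Fermat.Agent.Delta
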