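/-
DELTA / I6 (helper3), package (E): **Eisenstein exclusion**.

Input: (SL) `DlsEis` (slopes of `Y` are an `𝔽_p`-multiple `a` of those of a vertical function `f` at
the non-cuspidal places of `Z_∞`, zero at the cusps), (VERT) `DlsVert f`, (E*) `DlsHeckeOrd`,
and one Hecke eigenvalue `t` of the Kummer class of `Y` with `t ≢ ℓ + 1 (mod p)`.
Output: all slopes of `Y` vanish.

* `dle_hecke_rel`  : `T_ℓ x = t x` for `x = [div(Y)/p]` gives `T_ℓ^fun Y = Y ^ t * u ^ p`;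
* `dle_eisenstein` : the exclusion.
-/
import Mathlib
import Fermat.Agent.Lib.Delta.Slope.Eigen
import Fermat.Agent.Lib.Delta.Slope.Red

set_option autoImplicit false
set_option linter.unusedSectionVars false
set_option linter.unusedVariables false
set_option linter.style.haveILetI false
set_option synthInstance.maxHeartbeats 400000

namespace Fermat.Agent.Delta

open ModularCurve HahnSeries Fermat.Agent.T1 Fermat.Agent.T2 Fermat.Agent.TW Fermat.Agent.S24Lib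
  Fermat.Agent.S33Q Fermat.Agent.S33 Fermat.Agent.S05Lib AlgebraicCurve Fermat.Agent.Curve
  Fermat.Agent.Alpha Fermat.Agent.T3 Fermat.Agent.S23Lib Fermat.Agent.Igusa

local notation "Qb" => AlgebraicClosure ℚ

noncomputable section

attribute [local instance] s33g_neZero

section Rel

variable (N : ℕ) [NeZero N]

/-- a Hecke eigenclass `[div(Y)/m]` with eigenvalue `t` gives `T_ℓ^fun Y = Y ^ t * u ^ m` -/
theorem dle_hecke_rel {ℓ : ℕ} (hℓ : ℓ.Prime) (hℓN : ¬ ℓ ∣ N) {m : ℕ} (hm : m ≠ 0)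
    (Y : (↥(modularFunctionFieldBar N))ˣ)
    (hY : ∀ v : Place Qb ↥(modularFunctionFieldBar N),
      (m : ℤ) ∣ v.ord (Y : ↥(modularFunctionFieldBar N)))
    (t : ℕ)
    (hT : heckeOperatorBar N ⟨ℓ, hℓ⟩ (alpfClass hm Y hY) = t • alpfClass hm Y hY) :
    ∃ u : (↥(modularFunctionFieldBar N))ˣ, tkrHeckeUnits N ℓ Y = Y ^ t * u ^ m := by
  have hTYd := dls_hecke_dvd N hℓ hℓN Y hY
  have hYW : Y ∈ tWsub Qb N m := hY
  have hYt : Y ^ t ∈ tWsub Qb N m := Subgroup.pow_mem _ hYW t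
  have hZ : tkrHeckeUnits N ℓ Y * (Y ^ t)⁻¹ ∈ tWsub Qb N m :=
    Subgroup.mul_mem _ hTYd (Subgroup.inv_mem _ hYt)
  have e0 : (⟨tkrHeckeUnits N ℓ Y * (Y ^ t)⁻¹, hZ⟩ : tWsub Qb N m) * ⟨Y ^ t, hYt⟩ =
      ⟨tkrHeckeUnits N ℓ Y, hTYd⟩ := Subtype.ext (inv_mul_cancel_right _ _)
  have e1 : ((Multiplicative.toAdd (alptKumW N m hm ⟨Y ^ t, hYt⟩) :
      ↥(Submodule.torsionBy ℤ (JZero N) ((m : ℕ) : ℤ))) : JZero N) =
      t • alpfClass hm Y hY := by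
    have h1 : (⟨Y ^ t, hYt⟩ : tWsub Qb N m) = (⟨Y, hY⟩ : tWsub Qb N m) ^ t := rfl
    rw [h1, MonoidHom.map_pow, toAdd_pow, Submodule.coe_smul_of_tower, alptKumW_coe]
  have e2 := congrArg (fun z => ((Multiplicative.toAdd (alptKumW N m hm z) :
      ↥(Submodule.torsionBy ℤ (JZero N) ((m : ℕ) : ℤ))) : JZero N)) e0
  simp only [MonoidHom.map_mul, toAdd_mul, Submodule.coe_add] at e2
  rw [e1, alptKumW_coe, alptKumW_coe] at e2
  have e3 : alpfClass hm (tkrHeckeUnits N ℓ Y * (Y ^ t)⁻¹) hZ = 0 := by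
    have e4 : alpfClass hm (tkrHeckeUnits N ℓ Y) hTYd = t • alpfClass hm Y hY := by
      rw [← dls_hecke_class N hℓ hℓN hm Y hY, hT]
    rw [e4] at e2
    exact add_eq_right.mp e2
  obtain ⟨u, hu⟩ := (alpt_kummer_ker N m hm _ hZ).mp e3
  exact ⟨u, by rw [← hu, mul_comm, inv_mul_cancel_right]⟩

end Rel

variable (𝔓 : FFPlace) (N' : ℕ) [NeZero N'] (h : ¬ 𝔓.p ∣ N')

/-- (E) **Eisenstein exclusion** -/
theorem dle_eisenstein (hH : DlsHeckeOrd 𝔓 N' h)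
    (f : (↥(modularFunctionFieldBar (N' * 𝔓.p)))ˣ) (hf : DlsVert 𝔓 N' h f)
    (Y : (↥(modularFunctionFieldBar (N' * 𝔓.p)))ˣ)
    (hY : ∀ v : Place Qb ↥(modularFunctionFieldBar (N' * 𝔓.p)),
      ((𝔓.p : ℕ) : ℤ) ∣ v.ord (Y : ↥(modularFunctionFieldBar (N' * 𝔓.p))))
    (hSL : DlsEis 𝔓 N' h f Y)
    {ℓ : ℕ} (hℓ : ℓ.Prime) (hℓN : ¬ ℓ ∣ N' * 𝔓.p) (t : ℕ)
    (hT : heckeOperatorBar (N' * 𝔓.p) ⟨ℓ, hℓ⟩ (alpfClass 𝔓.hp.ne_zero Y hY) =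
      t • alpfClass 𝔓.hp.ne_zero Y hY)
    (hne : ((t : ℕ) : ZMod 𝔓.p) ≠ (ℓ : ZMod 𝔓.p) + 1) :
    ∀ s, dlsSlope 𝔓 N' h Y s = 0 := by
  haveI : Fact 𝔓.p.Prime := ⟨𝔓.hp⟩
  obtain ⟨a, ha, hcusp⟩ := hSL
  obtain ⟨u, hu⟩ := dle_hecke_rel (N' * 𝔓.p) hℓ hℓN 𝔓.hp.ne_zero Y hY t hT
  obtain ⟨c, u', hfu⟩ := hf.hecke ℓ hℓ hℓN
  obtain ⟨s₀, hs₀, hs₀ne⟩ := hf.slope
  -- the auxiliary function `y = Y / f ^ ã`
  set y : (↥(modularFunctionFieldBar (N' * 𝔓.p)))ˣ := Y * (f ^ a.val)⁻¹ with hy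
  have hys : ∀ s, DlsFin 𝔓 N' s → dlsSlope 𝔓 N' h y s = 0 := by
    intro s hs
    rw [hy, dlsSlope_mul, dlsSlope_inv, dlsSlope_pow, ha s hs, nsmul_eq_mul, ZMod.natCast_val,
      ZMod.cast_id', id_eq, add_neg_cancel]
  -- `T_ℓ^fun f` as a unit
  have hTf : dlsSlope 𝔓 N' h (tkrHeckeUnits (N' * 𝔓.p) ℓ f) =
      dlsSlope 𝔓 N' h (f ^ (ℓ + 1) * u' ^ 𝔓.p) := by
    funext s
    exact dlsSlope_const_mul 𝔓 N' h c _ _ (by rw [tkrHeckeUnits_coe, hfu]) s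
  have hTy := hH ℓ hℓ hℓN y hys (tkrHeckeUnits (N' * 𝔓.p) ℓ y) (tkrHeckeUnits_coe _)
  -- the key identity
  have key : ∀ s, DlsFin 𝔓 N' s →
      a * (((t : ℕ) : ZMod 𝔓.p) - ((ℓ : ZMod 𝔓.p) + 1)) * dlsSlope 𝔓 N' h f s = 0 := by
    intro s hs
    have h1 := hTy s hs
    have h2 : tkrHeckeUnits (N' * 𝔓.p) ℓ y =
        (Y ^ t * u ^ 𝔓.p) * ((tkrHeckeUnits (N' * 𝔓.p) ℓ f) ^ a.val)⁻¹ := by
      rw [hy, map_mul, map_inv, map_pow, hu]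
    have h3 : dlsSlope 𝔓 N' h (tkrHeckeUnits (N' * 𝔓.p) ℓ f) s =
        ((ℓ : ZMod 𝔓.p) + 1) * dlsSlope 𝔓 N' h f s := by
      rw [congrFun hTf s, dlsSlope_mul, dlsSlope_pow, dlsSlope_pow_p, add_zero, nsmul_eq_mul,
        Nat.cast_add, Nat.cast_one]
    rw [h2, dlsSlope_mul, dlsSlope_mul, dlsSlope_inv, dlsSlope_pow, dlsSlope_pow_p, dlsSlope_pow,
      h3, ha s hs, add_zero, nsmul_eq_mul, nsmul_eq_mul, ZMod.natCast_val, ZMod.cast_id', id_eq]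
      at h1
    rw [← h1]
    ring
  have ha0 : a = 0 := by
    have h1 := key s₀ hs₀
    rcases mul_eq_zero.mp h1 with h2 | h2
    · rcases mul_eq_zero.mp h2 with h3 | h3
      · exact h3
      · exact absurd (sub_eq_zero.mp h3) hne
    · exact absurd h2 hs₀ne
  intro s
  by_cases hs : DlsFin 𝔓 N' s
  · rw [ha s hs, ha0, zero_mul]
  · exact hcusp s hs

end

end Fermat.Agent.Delta
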