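/-
DELTA / I6, package (O), part (O1) (helper3): **logarithmic differentials with `p`-divisible divisor
are regular; descent of `p`-divisibility of orders along a finite separable extension of degree
prime to `p`**.

* `dle_log_regular`      : `char K = p`, `p ∣ ord_v y`  ⇒  `0 ≤ ord_v (y⁻¹ dy)`;
* `dle_ord_descend_abs`  : `F'/F` finite separable of degree prime to `p`, `y ∈ F`,
                           `p ∣ ord_w y` for all places `w` of `F'`  ⇒  `p ∣ ord_v y` for all `v` of `F`;
* `dle_finrank_alpha`    : `[F̄_{Me} : F̄_M] = ψ(Me)/ψ(M)` (all levels prime to `p`);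
* `dle_ord_descend`      : the descent for the reduced modular function fields `F̄_M ⊆ F̄_{Me}`.
-/
import Mathlib
import Fermat.Agent.Lib.CurveP.Differential
import Fermat.Agent.Lib.Curve.ResidueField
import Fermat.Agent.Lib.Delta.Hecke.NormOrd
import Fermat.Agent.Lib.Delta.Hecke.Bar
import Fermat.Agent.Lib.T1.Inst.UpperQ
import Fermat.Agent.Lib.T3.Red.Modular

set_option autoImplicit false
set_option linter.unusedSectionVars false
set_option linter.unusedVariables false
set_option linter.style.haveILetI false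
set_option synthInstance.maxHeartbeats 400000

namespace Fermat.Agent.Delta

open ModularCurve HahnSeries Fermat.Agent.T1 Fermat.Agent.T2 Fermat.Agent.TW
  AlgebraicCurve Fermat.Agent.Curve Fermat.Agent.T3 IntermediateField Module
  Fermat.Agent.Curve.PlaceAux KaehlerDifferential

noncomputable section

section Abstract

variable {K F : Type*} [Field K] [Field F] [Algebra K F]

/-- `ord_v (-ω) = ord_v ω` -/
theorem dle_ordDifferential_neg (v : Place K F) [v.DCoordGenerates] [Nontrivial Ω[F⁄K]]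
    (ω : Ω[F⁄K]) : v.ordDifferential (-ω) = v.ordDifferential ω := by
  have h : -ω = (-1 : F) • ω := by rw [neg_smul, one_smul]
  have h2 : ∀ f : F, v.ord (-f) = v.ord f := fun f => by
    simp only [Place.ord, Valuation.map_neg]
  rw [h, Place.ordDifferential, v.differentialCoeff_smul, neg_one_mul, h2, Place.ordDifferential]

/-- the case `0 ≤ ord_v y` -/
theorem dle_log_regular_of_nonneg [IsAlgClosed K] {x : F} (hx : IsFunctionFieldGen K F x)
    [Algebra.IsSeparable (IntermediateField.adjoin K {x}) F] (p : ℕ) [CharP K p]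
    (v : Place K F) (y : F) (hy : y ≠ 0) (hn : 0 ≤ v.ord y) (hp : (p : ℤ) ∣ v.ord y) :
    0 ≤ v.ordDifferential (y⁻¹ • D K F y) := by
  haveI := Fermat.Agent.CurveP.dCoordGenerates hx v
  haveI := Fermat.Agent.CurveP.nontrivial_kaehler_of_place hx v
  rw [Place.ordDifferential, v.differentialCoeff_smul]
  by_cases hc : v.differentialCoeff (D K F y) = 0
  · rw [hc, mul_zero, v.ord_zero]
  rw [v.ord_mul (inv_ne_zero hy) hc, v.ord_inv]
  rcases hn.lt_or_eq with hpos | hzero
  · -- a zero of `y`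
    have h0 : 0 ≤ v.ord (y - algebraMap K F 0) := by rw [map_zero, sub_zero]; exact hn
    have hne : y - algebraMap K F 0 ≠ 0 := by rw [map_zero, sub_zero]; exact hy
    rcases Fermat.Agent.CurveP.le_ord_differentialCoeff_D hx v y 0 h0 hne with h1 | ⟨-, h2⟩
    · exact absurd h1 hc
    · rw [map_zero, sub_zero] at h2
      have h3 : (((v.ord y).toNat : ℕ) : K) = 0 := by
        rw [CharP.cast_eq_zero_iff K p]
        have h4 : ((p : ℕ) : ℤ) ∣ (((v.ord y).toNat : ℕ) : ℤ) := by
          rw [Int.toNat_of_nonneg hn]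
          exact hp
        exact_mod_cast h4
      have := h2 h3
      omega
  · -- a unit
    have hmem : y ∈ v.toValuationSubring := mem_of_ord_nonneg v hn
    obtain ⟨a, ha⟩ := exists_const_ordGE_one hx v hmem
    rcases (ordGE_iff v).mp ha with h0 | h1
    · exfalso
      apply hc
      have : y = algebraMap K F a := sub_eq_zero.mp h0
      rw [this, Derivation.map_algebraMap, v.differentialCoeff_zero]
    · have hne : y - algebraMap K F a ≠ 0 := by
        intro h0
        apply hc
        have : y = algebraMap K F a := sub_eq_zero.mp h0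
        rw [this, Derivation.map_algebraMap, v.differentialCoeff_zero]
      rcases Fermat.Agent.CurveP.le_ord_differentialCoeff_D hx v y a (by omega) hne with
        h2 | ⟨h2, -⟩
      · exact absurd h2 hc
      · omega

/-- **a logarithmic differential `dy / y` is regular at every place where `p = char K` divides
the order of `y`** -/
theorem dle_log_regular [IsAlgClosed K] {x : F} (hx : IsFunctionFieldGen K F x)
    [Algebra.IsSeparable (IntermediateField.adjoin K {x}) F] (p : ℕ) [CharP K p]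
    (v : Place K F) (y : F) (hy : y ≠ 0) (hp : (p : ℤ) ∣ v.ord y) :
    0 ≤ v.ordDifferential (y⁻¹ • D K F y) := by
  haveI := Fermat.Agent.CurveP.dCoordGenerates hx v
  haveI := Fermat.Agent.CurveP.nontrivial_kaehler_of_place hx v
  rcases le_or_gt 0 (v.ord y) with hn | hn
  · exact dle_log_regular_of_nonneg hx p v y hy hn hp
  · have h1 : y⁻¹ • D K F y = -((y⁻¹)⁻¹ • D K F y⁻¹) := by
      have h2 : y⁻¹ * -y ^ 2 = -y := by field_simp
      rw [Fermat.Agent.CurveP.D_inv_eq (K := K) y, inv_inv, smul_smul, h2, neg_smul]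
    rw [h1, dle_ordDifferential_neg]
    apply dle_log_regular_of_nonneg hx p v y⁻¹ (inv_ne_zero hy)
    · rw [v.ord_inv]; omega
    · rw [v.ord_inv]; exact (dvd_neg).mpr hp

end Abstract

section Descend

variable {K F F' : Type*} [Field K] [Field F] [Field F'] [Algebra K F] [Algebra K F']
  [Algebra F F'] [IsScalarTower K F F'] [FiniteDimensional F F'] [Algebra.IsSeparable F F']

/-- **descent of `p`-divisibility** along a finite separable extension of degree prime to `p` -/
theorem dle_ord_descend_abs (p : ℕ) (hp : p.Prime) (hd : ¬ p ∣ finrank F F') (y : F) (hy : y ≠ 0)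
    (h : ∀ w : Place K F', (p : ℤ) ∣ w.ord (algebraMap F F' y)) (v : Place K F) :
    (p : ℤ) ∣ v.ord y := by
  have hz : algebraMap F F' y ≠ 0 := (map_ne_zero _).mpr hy
  have h1 := dlh_ord_norm_dvd v p hz (fun w _ => h w)
  rw [Algebra.norm_algebraMap, ← zpow_natCast, v.ord_zpow] at h1
  have hcop : IsCoprime ((p : ℕ) : ℤ) ((finrank F F' : ℕ) : ℤ) := by
    rw [Int.isCoprime_iff_gcd_eq_one, Int.gcd_natCast_natCast]
    exact (Nat.Prime.coprime_iff_not_dvd hp).mpr hd
  exact hcop.dvd_of_dvd_mul_left h1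

end Descend

section Modular

attribute [local instance 5000] dlhAlgK

variable (𝔓 : FFPlace) (M e : ℕ) [NeZero M] [NeZero e]

/-- `[F̄_{Me} : ᾱ F̄_M] · ψ(M) = ψ(Me)` at all levels prime to `p` -/
theorem dle_finrank_alpha (hMe : ¬ 𝔓.p ∣ M * e) :
    dedekindPsi M * (@finrank ↥(tbBarF 𝔓 M) ↥(tbBarF 𝔓 (M * e)) _ _
      (algebraAlong (dlhAlphaC (IsLocalRing.ResidueField ↥𝔓.P) M e)).toModule) =
      dedekindPsi (M * e) := by
  have hM : ¬ 𝔓.p ∣ M := fun h => hMe (h.mul_right e)
  have h1 := dlh_finrank_tower (dlhAlphaC (IsLocalRing.ResidueField ↥𝔓.P) M e) (tbBarJ 𝔓 M)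
  rw [dlh_alpha_barJ, tbq_finrank_bar (t3aOK 𝔓 M hM) hM,
    tbq_finrank_bar (t3aOK 𝔓 (M * e) hMe) hMe] at h1
  exact h1

/-- **descent of `p`-divisibility of orders from `F̄_{Me}` to `F̄_M`** when
`ψ(Me) = d ψ(M)` with `p ∤ d` -/
theorem dle_ord_descend (hMe : ¬ 𝔓.p ∣ M * e) (d : ℕ)
    (hd : dedekindPsi (M * e) = d * dedekindPsi M) (hpd : ¬ 𝔓.p ∣ d)
    (y : ↥(tbBarF 𝔓 M)) (hy : y ≠ 0)
    (h : ∀ w : Place (IsLocalRing.ResidueField ↥𝔓.P) ↥(tbBarF 𝔓 (M * e)),
      ((𝔓.p : ℕ) : ℤ) ∣ w.ord (dlhAlphaC (IsLocalRing.ResidueField ↥𝔓.P) M e y))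
    (v : Place (IsLocalRing.ResidueField ↥𝔓.P) ↥(tbBarF 𝔓 M)) :
    ((𝔓.p : ℕ) : ℤ) ∣ v.ord y := by
  have hM : ¬ 𝔓.p ∣ M := fun h => hMe (h.mul_right e)
  have hψ : 0 < dedekindPsi M := by
    rw [← tbq_finrank_bar (t3aOK 𝔓 M hM) hM]
    haveI := (tbq_bar_isFunctionFieldGen 𝔓 M).finite
    exact Module.finrank_pos
  have hfr := dle_finrank_alpha 𝔓 M e hMe
  rw [hd, mul_comm d] at hfr
  have hfr' := Nat.eq_of_mul_eq_mul_left hψ hfr
  letI := algebraAlong (dlhAlphaC (IsLocalRing.ResidueField ↥𝔓.P) M e)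
  haveI := isScalarTower_along (dlhAlphaC (IsLocalRing.ResidueField ↥𝔓.P) M e)
  have hd0 : 0 < d := by
    rcases Nat.eq_zero_or_pos d with rfl | h0
    · exact absurd (dvd_zero _) hpd
    · exact h0
  haveI : FiniteDimensional ↥(tbBarF 𝔓 M) ↥(tbBarF 𝔓 (M * e)) := by
    apply FiniteDimensional.of_finrank_pos
    rw [hfr']
    exact hd0
  haveI : Algebra.IsSeparable ↥(tbBarF 𝔓 M) ↥(tbBarF 𝔓 (M * e)) := by
    have hsep := tbq_bar_isSeparable (𝔓 := 𝔓) (N := M * e) hMe
    rw [← dlh_alpha_barJ 𝔓 M e] at hsep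
    haveI := hsep
    exact dlh_separable_tower (dlhAlphaC (IsLocalRing.ResidueField ↥𝔓.P) M e) (tbBarJ 𝔓 M)
  refine dle_ord_descend_abs 𝔓.p 𝔓.hp ?_ y hy (fun w => h w) v
  rw [hfr']
  exact hpd

end Modular

end

end Fermat.Agent.Delta
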