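/-
DELTA / I6, package (O) (helper3): **the `p`-old theorem** `dle_old`.

`Y` a Kummer function of a `p`-torsion class `x` of `J₀(Mp)` (`p ∤ M`, `p ≥ 5`), eigen for the `T_ℓ`
(`ℓ ∈ 𝓛`) with eigenvalues `a ℓ`.  If, seen at the level `M e p`, all the slopes of `Y` on the component
`Z_∞ ≅ X₀(Me)_κ` vanish, and `ψ(Me)/ψ(M)` is prime to `p`, then the reduction `ȳ` of `Y` has a
`p`-divisible divisor on `X₀(M)_κ`, `dlog ȳ` is a regular differential of `X₀(M)_κ`, its `q`-expansion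
`φ(Y)` is the reduction of integral cusp forms of level `M` (`dll_lift`), and Deligne–Serre (`dle_ds`)
gives a normalised eigenform of level `M` with `a_ℓ(g) ≡ a ℓ` for `ℓ ∈ 𝓛` — provided `φ(Y) ≠ 0`.
-/
import Mathlib
import Fermat.Agent.Lib.Delta.End.DS
import Fermat.Agent.Lib.Delta.End.Regular
import Fermat.Agent.Lib.Delta.Lift.Main
import Fermat.Agent.Lib.Delta.Slope.Red
import Fermat.Agent.Lib.Delta.Slope.Eigen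

set_option autoImplicit false
set_option linter.unusedSectionVars false
set_option linter.unusedVariables false
set_option linter.style.haveILetI false
set_option synthInstance.maxHeartbeats 400000

namespace Fermat.Agent.Delta

open ModularCurve HahnSeries Fermat.Agent.T1 Fermat.Agent.T2 Fermat.Agent.TW Fermat.Agent.S24Lib
  Fermat.Agent.S33Q Fermat.Agent.S33 Fermat.Agent.S05Lib AlgebraicCurve Fermat.Agent.Curve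
  Fermat.Agent.T3 Fermat.Agent.Alpha ModularFormClass CongruenceSubgroup Fermat.Agent.S23Lib
  KaehlerDifferential Fermat.Agent.Curve.PlaceAux

local notation "Qb" => AlgebraicClosure ℚ

noncomputable section

attribute [local instance] s33g_neZero
attribute [local instance 5000] dlhAlgK

variable (𝔓 : FFPlace) (M e : ℕ) [NeZero M] [NeZero e]

/-- the data on one side (`v_∞`) for the `p`-old theorem -/
structure DleSide (hMe : ¬ 𝔓.p ∣ M * e) (𝓛 : Set ℕ) (a : ℕ → ℤ)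
    (Y : (↥(modularFunctionFieldBar (M * 𝔓.p)))ˣ) : Prop where
  div : ∀ v : Place Qb ↥(modularFunctionFieldBar (M * 𝔓.p)),
    ((𝔓.p : ℕ) : ℤ) ∣ v.ord (Y : ↥(modularFunctionFieldBar (M * 𝔓.p)))
  eigen : ∀ (ℓ : ℕ) (hℓ : ℓ.Prime), ℓ ∈ 𝓛 →
    heckeOperatorBar (M * 𝔓.p) ⟨ℓ, hℓ⟩ (alpfClass 𝔓.hp.ne_zero Y div) =
      (a ℓ : ℤ) • alpfClass 𝔓.hp.ne_zero Y div
  up : ∃ Y'' : (↥(modularFunctionFieldBar (M * e * 𝔓.p)))ˣ,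
    ((Y'' : ↥(modularFunctionFieldBar (M * e * 𝔓.p))) : LaurentSeries Qb) =
      ((Y : ↥(modularFunctionFieldBar (M * 𝔓.p))) : LaurentSeries Qb) ∧
    ∀ s : Place (IsLocalRing.ResidueField ↥𝔓.P) ↥(tbBarF 𝔓 (M * e)),
      dlsSlope 𝔓 (M * e) hMe Y'' s = 0

variable {𝔓 M e}

/-- the reduction of `Y` at level `M` has a `p`-divisible divisor -/
theorem DleSide.ord_dvd {hMe : ¬ 𝔓.p ∣ M * e} {𝓛 : Set ℕ} {a : ℕ → ℤ}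
    {Y : (↥(modularFunctionFieldBar (M * 𝔓.p)))ˣ} (hside : DleSide 𝔓 M e hMe 𝓛 a Y)
    (hM : ¬ 𝔓.p ∣ M) (d : ℕ) (hd : dedekindPsi (M * e) = d * dedekindPsi M) (hpd : ¬ 𝔓.p ∣ d)
    (v : Place (IsLocalRing.ResidueField ↥𝔓.P) ↥(tbBarF 𝔓 M)) :
    ((𝔓.p : ℕ) : ℤ) ∣ v.ord (dlsRed 𝔓 M hM Y) := by
  obtain ⟨Y'', hYY, hsl⟩ := hside.up
  have h1 := dlsRed_spec 𝔓 M hM Y
  have h2 := dlsRed_spec 𝔓 (M * e) hMe Y''
  rw [hYY] at h2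
  obtain ⟨u, hu0, hu⟩ := h1.unique h2
  have hy0 := dlsRed_ne_zero 𝔓 M hM Y
  -- `ȳ'' = u ᾱ(ȳ)`
  have h3 : dlsRed 𝔓 (M * e) hMe Y'' =
      algebraMap (IsLocalRing.ResidueField ↥𝔓.P) ↥(tbBarF 𝔓 (M * e)) u *
        dlhAlphaC (IsLocalRing.ResidueField ↥𝔓.P) M e (dlsRed 𝔓 M hM Y) := by
    apply Subtype.ext
    rw [hu, MulMemClass.coe_mul, coe_dlhAlphaC]
    congr 1
    rw [HahnSeries.C_apply, ← algebraMap_laurentSeries_eq_single]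
    rfl
  refine dle_ord_descend 𝔓 M e hMe d hd hpd (dlsRed 𝔓 M hM Y) hy0 (fun w => ?_) v
  have h4 := hsl w
  rw [dlsSlope, ZMod.intCast_zmod_eq_zero_iff_dvd, h3,
    w.ord_mul ((map_ne_zero _).mpr hu0) ((map_ne_zero _).mpr hy0), PlaceAux.ord_algebraMap,
    zero_add] at h4
  exact h4

/-- an integer eigenvalue on a `p`-torsion class, rewritten with a natural number -/
theorem dle_eigen_nat (N : ℕ) [NeZero N] {ℓ : ℕ} (hℓ : ℓ.Prime)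
    (Y : (↥(modularFunctionFieldBar N))ˣ)
    (hY : ∀ v : Place Qb ↥(modularFunctionFieldBar N),
      ((𝔓.p : ℕ) : ℤ) ∣ v.ord (Y : ↥(modularFunctionFieldBar N))) (a : ℤ)
    (hT : heckeOperatorBar N ⟨ℓ, hℓ⟩ (alpfClass 𝔓.hp.ne_zero Y hY) =
      a • alpfClass 𝔓.hp.ne_zero Y hY) :
    heckeOperatorBar N ⟨ℓ, hℓ⟩ (alpfClass 𝔓.hp.ne_zero Y hY) =
      (a % (𝔓.p : ℤ)).toNat • alpfClass 𝔓.hp.ne_zero Y hY := by
  have hp0 : ((𝔓.p : ℕ) : ℤ) ≠ 0 := by exact_mod_cast 𝔓.hp.ne_zero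
  have h1 : (((a % (𝔓.p : ℤ)).toNat : ℕ) : ℤ) = a % (𝔓.p : ℤ) :=
    Int.toNat_of_nonneg (Int.emod_nonneg _ hp0)
  have h2 : a = a % (𝔓.p : ℤ) + (a / (𝔓.p : ℤ)) * (𝔓.p : ℤ) := by
    rw [mul_comm]; exact (Int.emod_add_mul_ediv a _).symm
  rw [hT, ← natCast_zsmul, h1]
  conv_lhs => rw [h2, add_zsmul, mul_zsmul, alpt_class_torsion 𝔓.hp.ne_zero Y hY, zsmul_zero,
    add_zero]

/-- **the `p`-old theorem** -/
theorem dle_old (hp5 : 5 ≤ 𝔓.p) (hMe : ¬ 𝔓.p ∣ M * e) (d : ℕ)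
    (hd : dedekindPsi (M * e) = d * dedekindPsi M) (hpd : ¬ 𝔓.p ∣ d)
    (𝓛 : Set ℕ) (h𝓛 : ∀ ℓ ∈ 𝓛, ℓ.Prime ∧ ¬ ℓ ∣ M * 𝔓.p) (a : ℕ → ℤ)
    (Y : (↥(modularFunctionFieldBar (M * 𝔓.p)))ˣ) (hside : DleSide 𝔓 M e hMe 𝓛 a Y)
    (hφ : dlsPhi 𝔓 ((Y : ↥(modularFunctionFieldBar (M * 𝔓.p))) : LaurentSeries Qb) ≠ 0) :
    ∃ (g : CuspForm (Gamma0 M) 2) (𝔪 : Ideal (integralClosure ℤ ℂ)),
      g.IsNormalizedEigenform ∧ 𝔪.IsMaximal ∧ (𝔓.p : integralClosure ℤ ℂ) ∈ 𝔪 ∧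
      ∀ ℓ ∈ 𝓛, ∃ c : integralClosure ℤ ℂ, (c : ℂ) = qCoeff g ℓ ∧
        c - ((a ℓ : ℤ) : integralClosure ℤ ℂ) ∈ 𝔪 := by
  have hM : ¬ 𝔓.p ∣ M := fun h => hMe (h.mul_right e)
  haveI : IsAlgClosed (IsLocalRing.ResidueField ↥𝔓.P) := tb_isAlgClosed_residueField 𝔓.P
  haveI : CharP (IsLocalRing.ResidueField ↥𝔓.P) 𝔓.p := tkr_charP_residue 𝔓.hp 𝔓.hP
  have hxb := tbq_bar_isFunctionFieldGen 𝔓 M
  haveI := tbq_bar_isSeparable (𝔓 := 𝔓) (N := M) hM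
  set y := dlsRed 𝔓 M hM Y with hy
  have hy0 : y ≠ 0 := dlsRed_ne_zero 𝔓 M hM Y
  -- the regular differential
  have hreg : ∀ v : Place (IsLocalRing.ResidueField ↥𝔓.P) ↥(tbBarF 𝔓 M),
      0 ≤ v.ordDifferential (y⁻¹ • D (IsLocalRing.ResidueField ↥𝔓.P) ↥(tbBarF 𝔓 M) y) :=
    fun v => dle_log_regular hxb 𝔓.p v y hy0 (hside.ord_dvd hM d hd hpd v)
  have hspan := dll_lift_of_indep 𝔓 M hp5 hM (dll_indep M 𝔓) _ hreg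
  have hpsi : dllPsi 𝔓 M (y⁻¹ • D (IsLocalRing.ResidueField ↥𝔓.P) ↥(tbBarF 𝔓 M) y) =
      dlsPhi 𝔓 ((Y : ↥(modularFunctionFieldBar (M * 𝔓.p))) : LaurentSeries Qb) := by
    rw [dllPsi_smul_D, dlsPhi_eq_log_red 𝔓 M hM Y, dlsLog, IntermediateField.coe_inv,
      div_eq_mul_inv, mul_comm]
  rw [hpsi] at hspan
  refine dle_ds M 𝔓 𝓛 (fun ℓ hℓ => ⟨(h𝓛 ℓ hℓ).1, fun h => (h𝓛 ℓ hℓ).2 (h.mul_right _)⟩) a _ hφ
    hspan ?_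
  intro ℓ _ hℓ𝓛
  obtain ⟨hℓ, hℓN⟩ := h𝓛 ℓ hℓ𝓛
  have hℓp : ℓ ≠ 𝔓.p := by
    rintro rfl
    exact hℓN (dvd_mul_left _ _)
  have h1 := dls_phi_eigen (M * 𝔓.p) 𝔓 hℓ hℓN hℓp Y hside.div _
    (dle_eigen_nat (M * 𝔓.p) hℓ Y hside.div (a ℓ) (hside.eigen ℓ hℓ hℓ𝓛))
  rw [h1]
  congr 2
  have hp0 : ((𝔓.p : ℕ) : ℤ) ≠ 0 := by exact_mod_cast 𝔓.hp.ne_zero
  have h2 : (((a ℓ % (𝔓.p : ℤ)).toNat : ℕ) : ℤ) = a ℓ % (𝔓.p : ℤ) :=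
    Int.toNat_of_nonneg (Int.emod_nonneg _ hp0)
  have h3 : ((((a ℓ % (𝔓.p : ℤ)).toNat : ℕ) : ℤ) : IsLocalRing.ResidueField ↥𝔓.P) =
      ((a ℓ : ℤ) : IsLocalRing.ResidueField ↥𝔓.P) := by
    rw [h2]
    conv_rhs => rw [← Int.emod_add_mul_ediv (a ℓ) (𝔓.p : ℤ)]
    rw [Int.cast_add, Int.cast_mul, Int.cast_natCast,
      CharP.cast_eq_zero (IsLocalRing.ResidueField ↥𝔓.P) 𝔓.p, zero_mul, add_zero]
  rw [← h3, Int.cast_natCast]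

end

end Fermat.Agent.Delta
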