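/-
DELTA / I6, package (O), consumer-side wrapper (helper5): **`dle_old` for `e ∈ {1, 2, 4}`, `p ≥ 5`**.

helper3's `dle_old` (End/Old.lean) takes the ratio `d = ψ(Me)/ψ(M)` and `p ∤ d` as inputs.  For the
auxiliary levels actually used (`e ∈ {1, 2, 4}`) the ratio divides `12`, hence is prime to `p ≥ 5`:

* `dle_psi_small`     : `e ∈ {1,2,4}`, `M ≠ 0` ⇒ `∃ d ∣ 12, ψ(M e) = d ψ(M)`;
* `dle_not_dvd_twelve`: a prime `p ≥ 5` does not divide `12`;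
* `dle_old_small`     : `dle_old` without the inputs `d, hd, hpd`.
-/
import Mathlib
import Fermat.Agent.Lib.Delta.End.Old

set_option autoImplicit false
set_option linter.unusedSectionVars false
set_option linter.unusedVariables false
set_option linter.style.haveILetI false
set_option synthInstance.maxHeartbeats 400000

namespace Fermat.Agent.Delta

open ModularCurve HahnSeries Fermat.Agent.T1 Fermat.Agent.TW Fermat.Agent.S24Lib
  AlgebraicCurve Fermat.Agent.Curve Fermat.Agent.Alpha ModularFormClass CongruenceSubgroup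

local notation "Qb" => AlgebraicClosure ℚ

theorem dle_psi_two_pow_succ (a : ℕ) : dedekindPsi (2 ^ (a + 1)) = 3 * 2 ^ a := by
  rw [dedekindPsi_prime_pow Nat.prime_two (Nat.succ_ne_zero a)]
  show 2 ^ (a + 1) + 2 ^ (a + 1 - 1) = 3 * 2 ^ a
  rw [Nat.add_sub_cancel, pow_succ]
  ring

/-- for `e ∈ {1, 2, 4}` the ratio `ψ(M e)/ψ(M)` is an integer dividing `12` -/
theorem dle_psi_small {M e : ℕ} (hM : M ≠ 0) (he : e = 1 ∨ e = 2 ∨ e = 4) :
    ∃ d : ℕ, d ∣ 12 ∧ dedekindPsi (M * e) = d * dedekindPsi M := by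
  obtain ⟨b, hb, rfl⟩ : ∃ b : ℕ, b ≤ 2 ∧ e = 2 ^ b := by
    rcases he with rfl | rfl | rfl
    · exact ⟨0, by omega, rfl⟩
    · exact ⟨1, by omega, rfl⟩
    · exact ⟨2, by omega, rfl⟩
  obtain ⟨a, m, hm, rfl⟩ := Nat.exists_eq_two_pow_mul_odd hM
  have hcop : ∀ k : ℕ, (2 ^ k).Coprime m :=
    fun k => Nat.Coprime.pow_left k (Nat.coprime_two_left.mpr hm)
  have h2 : 2 ^ a * m * 2 ^ b = 2 ^ (a + b) * m := by rw [_root_.pow_add]; ring
  rw [h2, dedekindPsi_mul (hcop a), dedekindPsi_mul (hcop (a + b))]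
  -- it suffices to treat the `2`-part
  suffices h : ∃ d : ℕ, d ∣ 12 ∧ dedekindPsi (2 ^ (a + b)) = d * dedekindPsi (2 ^ a) by
    obtain ⟨d, hd, h3⟩ := h
    exact ⟨d, hd, by rw [h3]; ring⟩
  rcases Nat.eq_zero_or_pos a with rfl | ha
  · rw [pow_zero, dedekindPsi_one, zero_add]
    interval_cases b
    · exact ⟨1, by norm_num, by rw [pow_zero, dedekindPsi_one]⟩
    · exact ⟨3, by norm_num, by
        rw [show (2:ℕ) ^ 1 = 2 ^ (0 + 1) from rfl, dle_psi_two_pow_succ]; norm_num⟩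
    · exact ⟨6, by norm_num, by
        rw [show (2:ℕ) ^ 2 = 2 ^ (1 + 1) from rfl, dle_psi_two_pow_succ]; norm_num⟩
  · obtain ⟨a', rfl⟩ : ∃ a', a = a' + 1 := ⟨a - 1, by omega⟩
    have h4 : a' + 1 + b = (a' + b) + 1 := by ring
    rw [h4, dle_psi_two_pow_succ, dle_psi_two_pow_succ, _root_.pow_add]
    refine ⟨2 ^ b, ?_, by ring⟩
    interval_cases b <;> norm_num

theorem dle_not_dvd_twelve {p : ℕ} (hp : p.Prime) (h5 : 5 ≤ p) : ¬ p ∣ 12 := by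
  intro h
  have h1 := Nat.le_of_dvd (by norm_num) h
  interval_cases p <;> first | (revert h; decide) | (revert hp; decide)

noncomputable section

attribute [local instance] Fermat.Agent.S33.s33g_neZero

variable {𝔓 : FFPlace} {M e : ℕ} [NeZero M] [NeZero e]

/-- **the `p`-old theorem for the auxiliary levels `e ∈ {1, 2, 4}`, `p ≥ 5`** (= helper3's `dle_old`
with the ratio `ψ(Me)/ψ(M) ∣ 12` supplied) -/
theorem dle_old_small (hp5 : 5 ≤ 𝔓.p) (he : e = 1 ∨ e = 2 ∨ e = 4) (hMe : ¬ 𝔓.p ∣ M * e)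
    (𝓛 : Set ℕ) (h𝓛 : ∀ ℓ ∈ 𝓛, ℓ.Prime ∧ ¬ ℓ ∣ M * 𝔓.p) (a : ℕ → ℤ)
    (Y : (↥(modularFunctionFieldBar (M * 𝔓.p)))ˣ) (hside : DleSide 𝔓 M e hMe 𝓛 a Y)
    (hφ : dlsPhi 𝔓 ((Y : ↥(modularFunctionFieldBar (M * 𝔓.p))) : LaurentSeries Qb) ≠ 0) :
    ∃ (g : CuspForm (Gamma0 M) 2) (𝔪 : Ideal (integralClosure ℤ ℂ)),
      g.IsNormalizedEigenform ∧ 𝔪.IsMaximal ∧ (𝔓.p : integralClosure ℤ ℂ) ∈ 𝔪 ∧
      ∀ ℓ ∈ 𝓛, ∃ c : integralClosure ℤ ℂ, (c : ℂ) = qCoeff g ℓ ∧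
        c - ((a ℓ : ℤ) : integralClosure ℤ ℂ) ∈ 𝔪 := by
  obtain ⟨d, hd12, hd⟩ := dle_psi_small (NeZero.ne M) he
  exact dle_old hp5 hMe d hd (fun h => dle_not_dvd_twelve 𝔓.hp hp5 (h.trans hd12)) 𝓛 h𝓛 a Y
    hside hφ

end

end Fermat.Agent.Delta
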