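/-
DELTA / I6, package (END), part (WH) (helper3): **the Atkin–Lehner involution `w_p` commutes with the
Hecke operators `T_ℓ`, `ℓ ∤ N' p`** — on functions (`tkrHecke`) and on Kummer classes.

Route: `T_ℓ^fun = N_α ∘ β` (`t3k_norm_eq`); the involution `w_p` of level `(N' ℓ) p`, transported to
`F_{N' p ℓ}` (the same subfield of `Qb((q))`), restricts to `w_p` of level `N' p` along `α`
(`dlw_w_incl`) and along `β` (`dle_w_beta`, by `t2w_ringHom_ext`); norms commute with automorphisms.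
-/
import Mathlib
import Fermat.Agent.Lib.Delta.Wire.BaseChange
import Fermat.Agent.Lib.Delta.Wire.PullDvd
import Fermat.Agent.Lib.Delta.Wire.EigenSpace
import Fermat.Agent.Lib.Delta.End.Eisenstein

set_option autoImplicit false
set_option linter.unusedSectionVars false
set_option linter.unusedVariables false
set_option linter.style.haveILetI false
set_option synthInstance.maxHeartbeats 400000

namespace Fermat.Agent.Delta

open AlgebraicCurve ModularCurve Fermat.Agent.Curve Fermat.Agent.T1 Fermat.Agent.T3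
  Fermat.Agent.Alpha Fermat.Agent.T2 HahnSeries Fermat.Agent.S24Lib Fermat.Agent.T1.KMod

local notation "Qb" => AlgebraicClosure ℚ

noncomputable section

theorem dle_mem_cast {K K' : ℕ} (hK : K = K') {x : LaurentSeries Qb}
    (hx : x ∈ modularFunctionFieldBar K) : x ∈ modularFunctionFieldBar K' := by
  subst hK
  exact hx

/-- the identity between two equal levels -/
def dleCast {K K' : ℕ} (hK : K = K') :
    ↥(modularFunctionFieldBar K) ≃ₐ[Qb] ↥(modularFunctionFieldBar K') where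
  toFun x := ⟨(x : LaurentSeries Qb), dle_mem_cast hK x.2⟩
  invFun x := ⟨(x : LaurentSeries Qb), dle_mem_cast hK.symm x.2⟩
  left_inv x := Subtype.ext rfl
  right_inv x := Subtype.ext rfl
  map_mul' x y := Subtype.ext rfl
  map_add' x y := Subtype.ext rfl
  commutes' c := Subtype.ext rfl

@[simp]
theorem coe_dleCast {K K' : ℕ} (hK : K = K') (x : ↥(modularFunctionFieldBar K)) :
    ((dleCast hK x : ↥(modularFunctionFieldBar K')) : LaurentSeries Qb) = (x : LaurentSeries Qb) :=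
  Subtype.coe_mk _ _

@[simp]
theorem coe_dleCast_symm {K K' : ℕ} (hK : K = K') (x : ↥(modularFunctionFieldBar K')) :
    (((dleCast hK).symm x : ↥(modularFunctionFieldBar K)) : LaurentSeries Qb) =
      (x : LaurentSeries Qb) :=
  Subtype.coe_mk _ _

theorem dle_jd_congr {K d d' : ℕ} [NeZero K] (hd : d ∣ K) (hd' : d' ∣ K) (h : d = d') :
    t2wJd Qb K d hd = t2wJd Qb K d' hd' := by
  subst h
  rfl

variable (N' p ℓ : ℕ) [NeZero N'] [hp : Fact p.Prime] [hℓ : Fact ℓ.Prime]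

theorem dle_level_comm : N' * p * ℓ = N' * ℓ * p := by ring

/-- `β_ℓ : F_{N'p} → F_{N'ℓp}`, `x(q) ↦ x(q^ℓ)` -/
def dleBetaI : ↥(modularFunctionFieldBar (N' * p)) →ₐ[Qb] ↥(modularFunctionFieldBar (N' * ℓ * p)) :=
  ((dleCast (dle_level_comm N' p ℓ) : ↥(modularFunctionFieldBar (N' * p * ℓ)) ≃ₐ[Qb]
    ↥(modularFunctionFieldBar (N' * ℓ * p))) : ↥(modularFunctionFieldBar (N' * p * ℓ)) →ₐ[Qb]
    ↥(modularFunctionFieldBar (N' * ℓ * p))).comp (heckeBetaBar Qb (N' * p) ℓ)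

@[simp]
theorem coe_dleBetaI (x : ↥(modularFunctionFieldBar (N' * p))) :
    ((dleBetaI N' p ℓ x : ↥(modularFunctionFieldBar (N' * ℓ * p))) : LaurentSeries Qb) =
      qExpand Qb ℓ (x : LaurentSeries Qb) := rfl

theorem dleBetaI_jd {d : ℕ} (hd : d ∣ N' * p) (hd' : ℓ * d ∣ N' * ℓ * p) :
    dleBetaI N' p ℓ (t2wJd Qb (N' * p) d hd) = t2wJd Qb (N' * ℓ * p) (ℓ * d) hd' := by
  haveI : NeZero d := t2w_neZero_of_dvd (N' * p) hd
  haveI : NeZero (ℓ * d) := t2w_neZero_of_dvd (N' * ℓ * p) hd'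
  apply Subtype.ext
  rw [coe_dleBetaI, coe_t2wJd, coe_t2wJd, qExpand_qExpand]

variable (h : ¬ p ∣ N')

/-- **`w_p` commutes with `β_ℓ`** -/
theorem dle_w_beta (h' : ¬ p ∣ N' * ℓ) (x : ↥(modularFunctionFieldBar (N' * p))) :
    t2w Qb (N' * ℓ) p h' (dleBetaI N' p ℓ x) = dleBetaI N' p ℓ (t2w Qb N' p h x) := by
  have key : ((t2w Qb (N' * ℓ) p h' : ↥(modularFunctionFieldBar (N' * ℓ * p)) ≃ₐ[Qb]
        ↥(modularFunctionFieldBar (N' * ℓ * p))) :
        ↥(modularFunctionFieldBar (N' * ℓ * p)) →+* ↥(modularFunctionFieldBar (N' * ℓ * p))).comp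
        ((dleBetaI N' p ℓ : ↥(modularFunctionFieldBar (N' * p)) →ₐ[Qb]
          ↥(modularFunctionFieldBar (N' * ℓ * p))) :
          ↥(modularFunctionFieldBar (N' * p)) →+* ↥(modularFunctionFieldBar (N' * ℓ * p)))
      = ((dleBetaI N' p ℓ : ↥(modularFunctionFieldBar (N' * p)) →ₐ[Qb]
          ↥(modularFunctionFieldBar (N' * ℓ * p))) :
          ↥(modularFunctionFieldBar (N' * p)) →+* ↥(modularFunctionFieldBar (N' * ℓ * p))).comp
        ((t2w Qb N' p h : ↥(modularFunctionFieldBar (N' * p)) ≃ₐ[Qb]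
          ↥(modularFunctionFieldBar (N' * p))) :
          ↥(modularFunctionFieldBar (N' * p)) →+* ↥(modularFunctionFieldBar (N' * p))) := by
    apply t2w_ringHom_ext
    · intro c
      simp
    · intro D hD
      rcases t2w_dvd_cases N' p hp.out hD with hd | ⟨d', hd', rfl⟩
      · have hde : ℓ * D ∣ N' * ℓ := by
          rw [mul_comm]; exact Nat.mul_dvd_mul_right hd ℓ
        show t2w Qb (N' * ℓ) p h' (dleBetaI N' p ℓ (t2wJd Qb (N' * p) D hD))
          = dleBetaI N' p ℓ (t2w Qb N' p h (t2wJd Qb (N' * p) D hD))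
        rw [dleBetaI_jd N' p ℓ hD (t2w_dvd₁ (N' * ℓ) p hde), t2w_jd₁ Qb (N' * ℓ) p h' hde,
          t2w_jd₁ Qb N' p h hd,
          dleBetaI_jd N' p ℓ (t2w_dvd₂ N' p hd)
            (by rw [show ℓ * (p * D) = p * (ℓ * D) by ring]; exact t2w_dvd₂ (N' * ℓ) p hde)]
        exact dle_jd_congr _ _ (by ring)
      · have hde : ℓ * d' ∣ N' * ℓ := by
          rw [mul_comm]; exact Nat.mul_dvd_mul_right hd' ℓ
        show t2w Qb (N' * ℓ) p h' (dleBetaI N' p ℓ (t2wJd Qb (N' * p) (p * d') hD))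
          = dleBetaI N' p ℓ (t2w Qb N' p h (t2wJd Qb (N' * p) (p * d') hD))
        rw [dleBetaI_jd N' p ℓ hD
            (by rw [show ℓ * (p * d') = p * (ℓ * d') by ring]; exact t2w_dvd₂ (N' * ℓ) p hde),
          dle_jd_congr (K := N' * ℓ * p) _ (t2w_dvd₂ (N' * ℓ) p hde)
            (show ℓ * (p * d') = p * (ℓ * d') by ring),
          t2w_jd₂ Qb (N' * ℓ) p h' hde, t2w_jd₂ Qb N' p h hd',
          dleBetaI_jd N' p ℓ (t2w_dvd₁ N' p hd') (t2w_dvd₁ (N' * ℓ) p hde)]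
  exact RingHom.congr_fun key x

/-- `w_p` on `F_{N' p ℓ}` -/
def dleWUp (h' : ¬ p ∣ N' * ℓ) :
    ↥(modularFunctionFieldBar (N' * p * ℓ)) ≃ₐ[Qb] ↥(modularFunctionFieldBar (N' * p * ℓ)) :=
  ((dleCast (dle_level_comm N' p ℓ)).trans (t2w Qb (N' * ℓ) p h')).trans
    (dleCast (dle_level_comm N' p ℓ)).symm

theorem dleWUp_apply (h' : ¬ p ∣ N' * ℓ) (x : ↥(modularFunctionFieldBar (N' * p * ℓ))) :
    dleWUp N' p ℓ h' x = (dleCast (dle_level_comm N' p ℓ)).symm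
      (t2w Qb (N' * ℓ) p h' (dleCast (dle_level_comm N' p ℓ) x)) := rfl

/-- `w_p ∘ α_ℓ = α_ℓ ∘ w_p` -/
theorem dleWUp_alpha (h' : ¬ p ∣ N' * ℓ) (x : ↥(modularFunctionFieldBar (N' * p))) :
    dleWUp N' p ℓ h' (heckeAlphaBar Qb (N' * p) ℓ x) =
      heckeAlphaBar Qb (N' * p) ℓ (t2w Qb N' p h x) := by
  have h1 : dleCast (dle_level_comm N' p ℓ) (heckeAlphaBar Qb (N' * p) ℓ x) = t3pIncl N' ℓ p x := by
    apply Subtype.ext
    rw [coe_dleCast, coe_heckeAlphaBar, coe_t3pIncl]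
  apply Subtype.ext
  rw [dleWUp_apply, coe_dleCast_symm, h1, dlw_w_incl N' ℓ p h h' x, coe_t3pIncl, coe_heckeAlphaBar]

/-- `w_p ∘ β_ℓ = β_ℓ ∘ w_p` -/
theorem dleWUp_beta (h' : ¬ p ∣ N' * ℓ) (x : ↥(modularFunctionFieldBar (N' * p))) :
    dleWUp N' p ℓ h' (heckeBetaBar Qb (N' * p) ℓ x) =
      heckeBetaBar Qb (N' * p) ℓ (t2w Qb N' p h x) := by
  have h1 : dleCast (dle_level_comm N' p ℓ) (heckeBetaBar Qb (N' * p) ℓ x) = dleBetaI N' p ℓ x :=
    rfl
  apply Subtype.ext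
  rw [dleWUp_apply, coe_dleCast_symm, h1, dle_w_beta N' p ℓ h h' x, coe_dleBetaI, coe_heckeBetaBar]

/-- **(WH)** `T_ℓ^fun ∘ w_p = w_p ∘ T_ℓ^fun` -/
theorem dle_hecke_w (hℓN : ¬ ℓ ∣ N' * p) (y : ↥(modularFunctionFieldBar (N' * p))) :
    tkrHecke (N' * p) ℓ (t2w Qb N' p h y) = t2w Qb N' p h (tkrHecke (N' * p) ℓ y) := by
  have hpℓ : p ≠ ℓ := by
    rintro rfl
    exact hℓN (dvd_mul_left _ _)
  have h' : ¬ p ∣ N' * ℓ := by
    intro h1
    rcases (Nat.Prime.dvd_mul hp.out).mp h1 with h2 | h2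
    · exact h h2
    · exact hpℓ ((Nat.prime_dvd_prime_iff_eq hp.out hℓ.out).mp h2)
  rw [← t3k_norm_eq (N' * p) ℓ hℓN, ← t3k_norm_eq (N' * p) ℓ hℓN, ← dleWUp_beta N' p ℓ h h']
  have h2 := @Algebra.norm_eq_of_equiv_equiv ↥(modularFunctionFieldBar (N' * p))
    ↥(modularFunctionFieldBar (N' * p * ℓ)) ↥(modularFunctionFieldBar (N' * p))
    ↥(modularFunctionFieldBar (N' * p * ℓ)) _ _ _ _ (algebraAlong (heckeAlphaBar Qb (N' * p) ℓ))
    (algebraAlong (heckeAlphaBar Qb (N' * p) ℓ)) (t2w Qb N' p h).toRingEquiv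
    (dleWUp N' p ℓ h').toRingEquiv
    (RingHom.ext (fun z => (dleWUp_alpha N' p ℓ h h' z).symm))
    (heckeBetaBar Qb (N' * p) ℓ y)
  rw [h2]
  exact ((t2w Qb N' p h).toRingEquiv.apply_symm_apply _).symm

/-! ### Kummer classes -/

/-- `w_p` on units -/
def dleWU : (↥(modularFunctionFieldBar (N' * p)))ˣ →* (↥(modularFunctionFieldBar (N' * p)))ˣ :=
  Units.map ((((t2w Qb N' p h : ↥(modularFunctionFieldBar (N' * p)) ≃ₐ[Qb]
    ↥(modularFunctionFieldBar (N' * p))) : ↥(modularFunctionFieldBar (N' * p)) →ₐ[Qb]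
    ↥(modularFunctionFieldBar (N' * p)))) : ↥(modularFunctionFieldBar (N' * p)) →*
    ↥(modularFunctionFieldBar (N' * p)))

@[simp]
theorem coe_dleWU (Y : (↥(modularFunctionFieldBar (N' * p)))ˣ) :
    ((dleWU N' p h Y : (↥(modularFunctionFieldBar (N' * p)))ˣ) :
      ↥(modularFunctionFieldBar (N' * p))) = t2w Qb N' p h (Y : ↥(modularFunctionFieldBar (N' * p))) :=
  rfl

theorem dle_w_integral : (((t2w Qb N' p h : ↥(modularFunctionFieldBar (N' * p)) ≃ₐ[Qb]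
    ↥(modularFunctionFieldBar (N' * p))) : ↥(modularFunctionFieldBar (N' * p)) →ₐ[Qb]
    ↥(modularFunctionFieldBar (N' * p)))).toRingHom.IsIntegral :=
  t3h_isIntegralAlong (t3h_gen (N' * p)) (t3h_gen (N' * p)) _

theorem dle_dvd_ord_w {m : ℕ} (Y : (↥(modularFunctionFieldBar (N' * p)))ˣ)
    (hY : ∀ v : Place Qb ↥(modularFunctionFieldBar (N' * p)),
      (m : ℤ) ∣ v.ord (Y : ↥(modularFunctionFieldBar (N' * p))))
    (v : Place Qb ↥(modularFunctionFieldBar (N' * p))) :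
    (m : ℤ) ∣ v.ord ((dleWU N' p h Y : (↥(modularFunctionFieldBar (N' * p)))ˣ) :
      ↥(modularFunctionFieldBar (N' * p))) :=
  dlw_dvd_ord_map _ (dle_w_integral N' p h) Y hY v

theorem dle_heckeUnits_w (hℓN : ¬ ℓ ∣ N' * p) (Y : (↥(modularFunctionFieldBar (N' * p)))ˣ) :
    tkrHeckeUnits (N' * p) ℓ (dleWU N' p h Y) = dleWU N' p h (tkrHeckeUnits (N' * p) ℓ Y) := by
  apply Units.ext
  rw [tkrHeckeUnits_coe, coe_dleWU, coe_dleWU, tkrHeckeUnits_coe]
  exact dle_hecke_w N' p ℓ h hℓN _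

/-- **`T_ℓ [Y] = t [Y] ⇒ T_ℓ [w_p Y] = t [w_p Y]`** -/
theorem dle_class_w_eigen {m : ℕ} (hm : m ≠ 0) (hℓN : ¬ ℓ ∣ N' * p)
    (Y : (↥(modularFunctionFieldBar (N' * p)))ˣ)
    (hY : ∀ v : Place Qb ↥(modularFunctionFieldBar (N' * p)),
      (m : ℤ) ∣ v.ord (Y : ↥(modularFunctionFieldBar (N' * p)))) (t : ℕ)
    (hT : heckeOperatorBar (N' * p) ⟨ℓ, hℓ.out⟩ (alpfClass hm Y hY) = t • alpfClass hm Y hY) :
    heckeOperatorBar (N' * p) ⟨ℓ, hℓ.out⟩
        (alpfClass hm (dleWU N' p h Y) (dle_dvd_ord_w N' p h Y hY)) =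
      t • alpfClass hm (dleWU N' p h Y) (dle_dvd_ord_w N' p h Y hY) := by
  obtain ⟨u, hu⟩ := dle_hecke_rel (N' * p) hℓ.out hℓN hm Y hY t hT
  have hWY : dleWU N' p h Y ∈ tWsub Qb (N' * p) m := dle_dvd_ord_w N' p h Y hY
  have hWYt : dleWU N' p h Y ^ t ∈ tWsub Qb (N' * p) m := Subgroup.pow_mem _ hWY t
  have hWum : ∀ v : Place Qb ↥(modularFunctionFieldBar (N' * p)),
      (m : ℤ) ∣ v.ord (((dleWU N' p h u) ^ m : (↥(modularFunctionFieldBar (N' * p)))ˣ) :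
        ↥(modularFunctionFieldBar (N' * p))) := by
    intro v
    rw [Units.val_pow_eq_pow_val, ← zpow_natCast, v.ord_zpow]
    exact dvd_mul_right _ _
  have e : tkrHeckeUnits (N' * p) ℓ (dleWU N' p h Y) =
      dleWU N' p h Y ^ t * dleWU N' p h u ^ m := by
    rw [dle_heckeUnits_w N' p ℓ h hℓN, hu, map_mul, map_pow, map_pow]
  have hWYt' : ∀ v : Place Qb ↥(modularFunctionFieldBar (N' * p)),
      (m : ℤ) ∣ v.ord (((dleWU N' p h Y) ^ t : (↥(modularFunctionFieldBar (N' * p)))ˣ) :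
        ↥(modularFunctionFieldBar (N' * p))) := hWYt
  have hprod : ∀ v : Place Qb ↥(modularFunctionFieldBar (N' * p)),
      (m : ℤ) ∣ v.ord (((dleWU N' p h Y) ^ t * (dleWU N' p h u) ^ m :
        (↥(modularFunctionFieldBar (N' * p)))ˣ) : ↥(modularFunctionFieldBar (N' * p))) :=
    Subgroup.mul_mem (tWsub Qb (N' * p) m) hWYt hWum
  rw [dls_hecke_class (N' * p) hℓ.out hℓN hm, dlw_class_congr hm e _ hprod,
    alpfClass_mul hm _ _ hWYt' hWum hprod, alpfClass_pow, add_zero]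
  have e1 : ((Multiplicative.toAdd (alptKumW (N' * p) m hm ⟨dleWU N' p h Y ^ t, hWYt⟩) :
      ↥(Submodule.torsionBy ℤ (JZero (N' * p)) ((m : ℕ) : ℤ))) : JZero (N' * p)) =
      t • alpfClass hm (dleWU N' p h Y) (dle_dvd_ord_w N' p h Y hY) := by
    have h1 : (⟨dleWU N' p h Y ^ t, hWYt⟩ : tWsub Qb (N' * p) m) =
        (⟨dleWU N' p h Y, hWY⟩ : tWsub Qb (N' * p) m) ^ t := rfl
    rw [h1, MonoidHom.map_pow, toAdd_pow, Submodule.coe_smul_of_tower, alptKumW_coe]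
  rw [← e1, alptKumW_coe]

/-- an integer multiple of an `m`-torsion element is a natural multiple -/
theorem dle_zsmul_eq_nsmul {A : Type*} [AddCommGroup A] {m : ℕ} (hm : m ≠ 0) (a : ℤ) (x : A)
    (hx : (m : ℤ) • x = 0) : a • x = (a % (m : ℤ)).toNat • x := by
  have hm0 : ((m : ℕ) : ℤ) ≠ 0 := by exact_mod_cast hm
  have h1 : (((a % (m : ℤ)).toNat : ℕ) : ℤ) = a % (m : ℤ) :=
    Int.toNat_of_nonneg (Int.emod_nonneg _ hm0)
  have h2 : a = a % (m : ℤ) + (a / (m : ℤ)) * (m : ℤ) := by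
    rw [mul_comm]; exact (Int.emod_add_mul_ediv a _).symm
  rw [← natCast_zsmul, h1]
  conv_lhs => rw [h2, add_zsmul, mul_zsmul, hx, zsmul_zero, add_zero]

/-- the same with integer eigenvalues -/
theorem dle_class_w_eigen_int {m : ℕ} (hm : m ≠ 0) (hℓN : ¬ ℓ ∣ N' * p)
    (Y : (↥(modularFunctionFieldBar (N' * p)))ˣ)
    (hY : ∀ v : Place Qb ↥(modularFunctionFieldBar (N' * p)),
      (m : ℤ) ∣ v.ord (Y : ↥(modularFunctionFieldBar (N' * p)))) (a : ℤ)
    (hT : heckeOperatorBar (N' * p) ⟨ℓ, hℓ.out⟩ (alpfClass hm Y hY) = a • alpfClass hm Y hY) :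
    heckeOperatorBar (N' * p) ⟨ℓ, hℓ.out⟩
        (alpfClass hm (dleWU N' p h Y) (dle_dvd_ord_w N' p h Y hY)) =
      a • alpfClass hm (dleWU N' p h Y) (dle_dvd_ord_w N' p h Y hY) := by
  rw [dle_zsmul_eq_nsmul hm a _ (alpt_class_torsion hm Y hY)] at hT
  rw [dle_zsmul_eq_nsmul hm a _ (alpt_class_torsion hm (dleWU N' p h Y) (dle_dvd_ord_w N' p h Y hY))]
  exact dle_class_w_eigen N' p ℓ h hm hℓN Y hY _ hT

end

end Fermat.Agent.Delta
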