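/-
DELTA / I6, package (END) (helper3): **GEO-B, the endgame at the level of one Kummer function**.

`Y` a Kummer function of a `p`-torsion point `x` of `J₀(Mp)` which is an eigenvector of the `T_ℓ`
(`ℓ ∈ 𝓛`); `Y''` the same Laurent series at the rigid level `M e p` (`e ∈ {1, 2, 4}`, `4 ∣ Me` or
`9 ∣ Me`).  If `x'' = [Y'']` is not in the formal part `s33gC`, and all slopes of `Y''` and of `w_p Y''`
vanish (the outputs of the Eisenstein exclusion), then there is a normalised eigenform of level `M`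
congruent to the eigenvalues mod `p`.

* `dle_slope_of_class_eq` : slopes only depend on the Kummer class;
* `dle_geoB`              : the statement above.
-/
import Mathlib
import Fermat.Agent.Lib.Delta.End.OldSmall
import Fermat.Agent.Lib.Delta.End.WHecke
import Fermat.Agent.Lib.Delta.Slope.Ker

set_option autoImplicit false
set_option linter.unusedSectionVars false
set_option linter.unusedVariables false
set_option linter.style.haveILetI false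
set_option synthInstance.maxHeartbeats 400000

namespace Fermat.Agent.Delta

open ModularCurve HahnSeries Fermat.Agent.T1 Fermat.Agent.T2 Fermat.Agent.TW Fermat.Agent.S24Lib
  Fermat.Agent.S33Q Fermat.Agent.S33 Fermat.Agent.S05Lib AlgebraicCurve Fermat.Agent.Curve
  Fermat.Agent.T3 Fermat.Agent.Alpha ModularFormClass CongruenceSubgroup

local notation "Qb" => AlgebraicClosure ℚ

noncomputable section

attribute [local instance] t2gp_fact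
attribute [local instance] s33g_neZero

variable (𝔓 : FFPlace)

/-- **slopes only depend on the Kummer class** -/
theorem dle_slope_of_class_eq (N' : ℕ) [NeZero N'] (h : ¬ 𝔓.p ∣ N')
    (Y Z : (↥(modularFunctionFieldBar (N' * 𝔓.p)))ˣ)
    (hY : ∀ v : Place Qb ↥(modularFunctionFieldBar (N' * 𝔓.p)),
      ((𝔓.p : ℕ) : ℤ) ∣ v.ord (Y : ↥(modularFunctionFieldBar (N' * 𝔓.p))))
    (hZ : ∀ v : Place Qb ↥(modularFunctionFieldBar (N' * 𝔓.p)),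
      ((𝔓.p : ℕ) : ℤ) ∣ v.ord (Z : ↥(modularFunctionFieldBar (N' * 𝔓.p))))
    (hcl : alpfClass 𝔓.hp.ne_zero Y hY = alpfClass 𝔓.hp.ne_zero Z hZ)
    (s : Place (IsLocalRing.ResidueField ↥𝔓.P) ↥(tbBarF 𝔓 N')) :
    dlsSlope 𝔓 N' h Y s = dlsSlope 𝔓 N' h Z s := by
  have hm := 𝔓.hp.ne_zero
  have hYW : Y ∈ tWsub Qb (N' * 𝔓.p) 𝔓.p := hY
  have hZW : Z ∈ tWsub Qb (N' * 𝔓.p) 𝔓.p := hZ
  have hYZ : ∀ v : Place Qb ↥(modularFunctionFieldBar (N' * 𝔓.p)),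
      ((𝔓.p : ℕ) : ℤ) ∣ v.ord ((Y * Z⁻¹ : (↥(modularFunctionFieldBar (N' * 𝔓.p)))ˣ) :
        ↥(modularFunctionFieldBar (N' * 𝔓.p))) :=
    Subgroup.mul_mem (tWsub Qb (N' * 𝔓.p) 𝔓.p) hYW (Subgroup.inv_mem _ hZW)
  have hYZZ : ∀ v : Place Qb ↥(modularFunctionFieldBar (N' * 𝔓.p)),
      ((𝔓.p : ℕ) : ℤ) ∣ v.ord ((Y * Z⁻¹ * Z : (↥(modularFunctionFieldBar (N' * 𝔓.p)))ˣ) :
        ↥(modularFunctionFieldBar (N' * 𝔓.p))) := by
    rw [inv_mul_cancel_right]; exact hY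
  have e1 : alpfClass hm (Y * Z⁻¹ * Z) hYZZ = alpfClass hm (Y * Z⁻¹) hYZ + alpfClass hm Z hZ :=
    alpfClass_mul hm _ _ hYZ hZ hYZZ
  have e2 : alpfClass hm (Y * Z⁻¹ * Z) hYZZ = alpfClass hm Y hY :=
    dlw_class_congr hm (inv_mul_cancel_right Y Z) _ _
  have e3 : alpfClass hm (Y * Z⁻¹) hYZ = 0 := by
    rw [e2, hcl] at e1
    exact (add_eq_right.mp e1.symm)
  obtain ⟨t, ht⟩ := (alpt_kummer_ker (N' * 𝔓.p) 𝔓.p hm _ hYZ).mp e3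
  have e4 : Y = t ^ 𝔓.p * Z := by rw [← ht, inv_mul_cancel_right]
  rw [e4, dlsSlope_mul, dlsSlope_pow_p, zero_add]

variable {𝔓}

/-- **GEO-B** -/
theorem dle_geoB (hp5 : 5 ≤ 𝔓.p) (M e : ℕ) [NeZero M] [NeZero e] (he : e = 1 ∨ e = 2 ∨ e = 4)
    (hMe : ¬ 𝔓.p ∣ M * e) (h49 : 4 ∣ M * e ∨ 9 ∣ M * e)
    (𝓛 : Set ℕ) (h𝓛 : ∀ ℓ ∈ 𝓛, ℓ.Prime ∧ ¬ ℓ ∣ M * 𝔓.p) (a : ℕ → ℤ)
    (Y : (↥(modularFunctionFieldBar (M * 𝔓.p)))ˣ)
    (hdiv : ∀ v : Place Qb ↥(modularFunctionFieldBar (M * 𝔓.p)),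
      ((𝔓.p : ℕ) : ℤ) ∣ v.ord (Y : ↥(modularFunctionFieldBar (M * 𝔓.p))))
    (heig : ∀ (ℓ : ℕ) (hℓ : ℓ.Prime), ℓ ∈ 𝓛 →
      heckeOperatorBar (M * 𝔓.p) ⟨ℓ, hℓ⟩ (alpfClass 𝔓.hp.ne_zero Y hdiv) =
        (a ℓ : ℤ) • alpfClass 𝔓.hp.ne_zero Y hdiv)
    (Y'' : (↥(modularFunctionFieldBar (M * e * 𝔓.p)))ˣ)
    (hYY : ((Y'' : ↥(modularFunctionFieldBar (M * e * 𝔓.p))) : LaurentSeries Qb) =
      ((Y : ↥(modularFunctionFieldBar (M * 𝔓.p))) : LaurentSeries Qb))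
    (hdiv'' : ∀ v : Place Qb ↥(modularFunctionFieldBar (M * e * 𝔓.p)),
      ((𝔓.p : ℕ) : ℤ) ∣ v.ord (Y'' : ↥(modularFunctionFieldBar (M * e * 𝔓.p))))
    (hC : alpfClass 𝔓.hp.ne_zero Y'' hdiv'' ∉ s33gC 𝔓 (M * e) hMe)
    (hsInf : ∀ s : Place (IsLocalRing.ResidueField ↥𝔓.P) ↥(tbBarF 𝔓 (M * e)),
      dlsSlope 𝔓 (M * e) hMe Y'' s = 0)
    (hsZero : ∀ s : Place (IsLocalRing.ResidueField ↥𝔓.P) ↥(tbBarF 𝔓 (M * e)),
      dlsSlope 𝔓 (M * e) hMe (dleWU (M * e) 𝔓.p hMe Y'') s = 0) :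
    ∃ (g : CuspForm (Gamma0 M) 2) (𝔪 : Ideal (integralClosure ℤ ℂ)),
      g.IsNormalizedEigenform ∧ 𝔪.IsMaximal ∧ (𝔓.p : integralClosure ℤ ℂ) ∈ 𝔪 ∧
      ∀ ℓ ∈ 𝓛, ∃ c : integralClosure ℤ ℂ, (c : ℂ) = qCoeff g ℓ ∧
        c - ((a ℓ : ℤ) : integralClosure ℤ ℂ) ∈ 𝔪 := by
  have hM : ¬ 𝔓.p ∣ M := fun h => hMe (h.mul_right e)
  by_cases hφ : dlsPhi 𝔓 ((Y : ↥(modularFunctionFieldBar (M * 𝔓.p))) : LaurentSeries Qb) = 0
  · -- the side `v_0`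
    have hφ0 : dlsPhi 𝔓 ((t2w Qb (M * e) 𝔓.p hMe (Y'' : ↥(modularFunctionFieldBar (M * e * 𝔓.p))) :
        ↥(modularFunctionFieldBar (M * e * 𝔓.p))) : LaurentSeries Qb) ≠ 0 := by
      intro h0
      exact hC (dls_ker 𝔓 (M * e) hMe h49 Y'' hdiv'' (by rw [hYY]; exact hφ) h0)
    -- `Y'' = incl Y`
    have hincl : (Y'' : ↥(modularFunctionFieldBar (M * e * 𝔓.p))) =
        t3pIncl M e 𝔓.p (Y : ↥(modularFunctionFieldBar (M * 𝔓.p))) := by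
      apply Subtype.ext
      rw [hYY, coe_t3pIncl]
    have hser : ((dleWU (M * e) 𝔓.p hMe Y'' : (↥(modularFunctionFieldBar (M * e * 𝔓.p)))ˣ) :
        ↥(modularFunctionFieldBar (M * e * 𝔓.p))) =
        t3pIncl M e 𝔓.p ((dleWU M 𝔓.p hM Y : (↥(modularFunctionFieldBar (M * 𝔓.p)))ˣ) :
          ↥(modularFunctionFieldBar (M * 𝔓.p))) := by
      rw [coe_dleWU, coe_dleWU, hincl, dlw_w_incl M e 𝔓.p hM hMe]
    have hser' : (((dleWU (M * e) 𝔓.p hMe Y'' : (↥(modularFunctionFieldBar (M * e * 𝔓.p)))ˣ) :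
        ↥(modularFunctionFieldBar (M * e * 𝔓.p))) : LaurentSeries Qb) =
        (((dleWU M 𝔓.p hM Y : (↥(modularFunctionFieldBar (M * 𝔓.p)))ˣ) :
          ↥(modularFunctionFieldBar (M * 𝔓.p))) : LaurentSeries Qb) := by
      rw [hser, coe_t3pIncl]
    have hside : DleSide 𝔓 M e hMe 𝓛 a (dleWU M 𝔓.p hM Y) :=
      { div := dle_dvd_ord_w M 𝔓.p hM Y hdiv
        eigen := by
          intro ℓ hℓ hℓ𝓛
          haveI : Fact ℓ.Prime := ⟨hℓ⟩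
          exact dle_class_w_eigen_int M 𝔓.p ℓ hM 𝔓.hp.ne_zero (h𝓛 ℓ hℓ𝓛).2 Y hdiv (a ℓ)
            (heig ℓ hℓ hℓ𝓛)
        up := ⟨dleWU (M * e) 𝔓.p hMe Y'', hser', hsZero⟩ }
    refine dle_old_small hp5 he hMe 𝓛 h𝓛 a _ hside ?_
    rw [← hser', coe_dleWU]
    exact hφ0
  · -- the side `v_∞`
    have hside : DleSide 𝔓 M e hMe 𝓛 a Y :=
      { div := hdiv
        eigen := heig
        up := ⟨Y'', hYY, hsInf⟩ }
    exact dle_old_small hp5 he hMe 𝓛 h𝓛 a Y hside hφ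

end

end Fermat.Agent.Delta
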