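/-
DELTA / I6, package (END), final form (helper3): **END-B**.

`Y` a Kummer function of a `p`-torsion point `x` of `J₀(Mp)`, eigen for the `T_ℓ` (`ℓ ∈ 𝓛`) with
integer eigenvalues `a ℓ`, non-Eisenstein at some `ℓ₀ ∈ 𝓛`.  If, at the rigid level `M e p`, the pull-back
`x''` of `x` is not in the formal part and the CORE statement `DlsEis` holds for `Y` and for `w_p Y`
(slopes proportional to those of a vertical Hecke-eigenfunction `f`), then there is a normalised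
eigenform of level `M` with `a_ℓ(g) ≡ a ℓ (mod 𝔪)`, `𝔪 ∣ p`, for all `ℓ ∈ 𝓛`.

* `dle_eisenstein_all` : Eisenstein exclusion, without the `slope` field of `DlsVert`;
* `dle_endB`           : the statement above (= `dle_eisenstein_all` twice + `dle_geoB`).
-/
import Mathlib
import Fermat.Agent.Lib.Delta.End.GeoB
import Fermat.Agent.Lib.Delta.Hecke.Main

set_option autoImplicit false
set_option linter.unusedSectionVars false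
set_option linter.unusedVariables false
set_option linter.style.haveILetI false
set_option synthInstance.maxHeartbeats 400000

namespace Fermat.Agent.Delta

open ModularCurve HahnSeries Fermat.Agent.T1 Fermat.Agent.T2 Fermat.Agent.TW Fermat.Agent.S24Lib
  Fermat.Agent.S33Q Fermat.Agent.S33 Fermat.Agent.S05Lib AlgebraicCurve Fermat.Agent.Curve
  Fermat.Agent.T3 Fermat.Agent.Alpha ModularFormClass CongruenceSubgroup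

local notation "Qb" => AlgebraicClosure ℚ

noncomputable section

attribute [local instance] t2gp_fact
attribute [local instance] s33g_neZero

variable (𝔓 : FFPlace) (N' : ℕ) [NeZero N'] (h : ¬ 𝔓.p ∣ N')

/-- (E) **Eisenstein exclusion**, without the `slope` field: if no non-cuspidal slope of `f` is
prime to `p`, the conclusion is immediate from `DlsEis` -/
theorem dle_eisenstein_all (hH : DlsHeckeOrd 𝔓 N' h)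
    (f : (↥(modularFunctionFieldBar (N' * 𝔓.p)))ˣ)
    (hfh : ∀ ℓ : ℕ, ℓ.Prime → ¬ ℓ ∣ N' * 𝔓.p →
      ∃ (c : Qbˣ) (u : (↥(modularFunctionFieldBar (N' * 𝔓.p)))ˣ),
        tkrHecke (N' * 𝔓.p) ℓ (f : ↥(modularFunctionFieldBar (N' * 𝔓.p))) =
          algebraMap Qb _ (c : Qb) * ((f ^ (ℓ + 1) * u ^ 𝔓.p :
            (↥(modularFunctionFieldBar (N' * 𝔓.p)))ˣ) : ↥(modularFunctionFieldBar (N' * 𝔓.p))))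
    (Y : (↥(modularFunctionFieldBar (N' * 𝔓.p)))ˣ)
    (hY : ∀ v : Place Qb ↥(modularFunctionFieldBar (N' * 𝔓.p)),
      ((𝔓.p : ℕ) : ℤ) ∣ v.ord (Y : ↥(modularFunctionFieldBar (N' * 𝔓.p))))
    (hSL : DlsEis 𝔓 N' h f Y)
    {ℓ : ℕ} (hℓ : ℓ.Prime) (hℓN : ¬ ℓ ∣ N' * 𝔓.p) (t : ℕ)
    (hT : heckeOperatorBar (N' * 𝔓.p) ⟨ℓ, hℓ⟩ (alpfClass 𝔓.hp.ne_zero Y hY) =
      t • alpfClass 𝔓.hp.ne_zero Y hY)
    (hne : ((t : ℕ) : ZMod 𝔓.p) ≠ (ℓ : ZMod 𝔓.p) + 1) :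
    ∀ s, dlsSlope 𝔓 N' h Y s = 0 := by
  by_cases hex : ∃ s, DlsFin 𝔓 N' s ∧ dlsSlope 𝔓 N' h f s ≠ 0
  · exact dle_eisenstein 𝔓 N' h hH f ⟨hfh, hex⟩ Y hY hSL hℓ hℓN t hT hne
  · push Not at hex
    obtain ⟨a, ha, hcusp⟩ := hSL
    intro s
    by_cases hs : DlsFin 𝔓 N' s
    · rw [ha s hs, hex s hs, mul_zero]
    · exact hcusp s hs

/-- the integer form -/
theorem dle_eisenstein_int (hH : DlsHeckeOrd 𝔓 N' h)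
    (f : (↥(modularFunctionFieldBar (N' * 𝔓.p)))ˣ)
    (hfh : ∀ ℓ : ℕ, ℓ.Prime → ¬ ℓ ∣ N' * 𝔓.p →
      ∃ (c : Qbˣ) (u : (↥(modularFunctionFieldBar (N' * 𝔓.p)))ˣ),
        tkrHecke (N' * 𝔓.p) ℓ (f : ↥(modularFunctionFieldBar (N' * 𝔓.p))) =
          algebraMap Qb _ (c : Qb) * ((f ^ (ℓ + 1) * u ^ 𝔓.p :
            (↥(modularFunctionFieldBar (N' * 𝔓.p)))ˣ) : ↥(modularFunctionFieldBar (N' * 𝔓.p))))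
    (Y : (↥(modularFunctionFieldBar (N' * 𝔓.p)))ˣ)
    (hY : ∀ v : Place Qb ↥(modularFunctionFieldBar (N' * 𝔓.p)),
      ((𝔓.p : ℕ) : ℤ) ∣ v.ord (Y : ↥(modularFunctionFieldBar (N' * 𝔓.p))))
    (hSL : DlsEis 𝔓 N' h f Y)
    {ℓ : ℕ} (hℓ : ℓ.Prime) (hℓN : ¬ ℓ ∣ N' * 𝔓.p) (a : ℤ)
    (hT : heckeOperatorBar (N' * 𝔓.p) ⟨ℓ, hℓ⟩ (alpfClass 𝔓.hp.ne_zero Y hY) =
      a • alpfClass 𝔓.hp.ne_zero Y hY)
    (hne : ((a : ℤ) : ZMod 𝔓.p) ≠ (ℓ : ZMod 𝔓.p) + 1) :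
    ∀ s, dlsSlope 𝔓 N' h Y s = 0 := by
  have hp0 : ((𝔓.p : ℕ) : ℤ) ≠ 0 := by exact_mod_cast 𝔓.hp.ne_zero
  rw [dle_zsmul_eq_nsmul 𝔓.hp.ne_zero a _ (alpt_class_torsion 𝔓.hp.ne_zero Y hY)] at hT
  refine dle_eisenstein_all 𝔓 N' h hH f hfh Y hY hSL hℓ hℓN _ hT ?_
  have h1 : (((a % (𝔓.p : ℤ)).toNat : ℕ) : ℤ) = a % (𝔓.p : ℤ) :=
    Int.toNat_of_nonneg (Int.emod_nonneg _ hp0)
  have h2 : (((a % (𝔓.p : ℤ)).toNat : ℕ) : ZMod 𝔓.p) = ((a : ℤ) : ZMod 𝔓.p) := by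
    rw [← Int.cast_natCast, h1, ZMod.intCast_mod]
  rw [h2]
  exact hne

variable {𝔓}

/-- **END-B** -/
theorem dle_endB (hp5 : 5 ≤ 𝔓.p) (M e : ℕ) [NeZero M] [NeZero e] (he : e = 1 ∨ e = 2 ∨ e = 4)
    (hMe : ¬ 𝔓.p ∣ M * e) (h49 : 4 ∣ M * e ∨ 9 ∣ M * e)
    (f : (↥(modularFunctionFieldBar (M * e * 𝔓.p)))ˣ)
    (hfh : ∀ ℓ : ℕ, ℓ.Prime → ¬ ℓ ∣ M * e * 𝔓.p →
      ∃ (c : Qbˣ) (u : (↥(modularFunctionFieldBar (M * e * 𝔓.p)))ˣ),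
        tkrHecke (M * e * 𝔓.p) ℓ (f : ↥(modularFunctionFieldBar (M * e * 𝔓.p))) =
          algebraMap Qb _ (c : Qb) * ((f ^ (ℓ + 1) * u ^ 𝔓.p :
            (↥(modularFunctionFieldBar (M * e * 𝔓.p)))ˣ) :
              ↥(modularFunctionFieldBar (M * e * 𝔓.p))))
    (𝓛 : Set ℕ) (h𝓛 : ∀ ℓ ∈ 𝓛, ℓ.Prime ∧ ¬ ℓ ∣ M * e * 𝔓.p) (a : ℕ → ℤ)
    (ℓ₀ : ℕ) (hℓ₀ : ℓ₀ ∈ 𝓛) (hne : ((a ℓ₀ : ℤ) : ZMod 𝔓.p) ≠ (ℓ₀ : ZMod 𝔓.p) + 1)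
    (Y : (↥(modularFunctionFieldBar (M * 𝔓.p)))ˣ)
    (hdiv : ∀ v : Place Qb ↥(modularFunctionFieldBar (M * 𝔓.p)),
      ((𝔓.p : ℕ) : ℤ) ∣ v.ord (Y : ↥(modularFunctionFieldBar (M * 𝔓.p))))
    (heig : ∀ (ℓ : ℕ) (hℓ : ℓ.Prime), ℓ ∈ 𝓛 →
      heckeOperatorBar (M * 𝔓.p) ⟨ℓ, hℓ⟩ (alpfClass 𝔓.hp.ne_zero Y hdiv) =
        (a ℓ : ℤ) • alpfClass 𝔓.hp.ne_zero Y hdiv)
    (hC : alpfClass 𝔓.hp.ne_zero
        (dlwInclU (Nat.mul_dvd_mul_right (Dvd.intro e rfl : M ∣ M * e) 𝔓.p) Y)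
        (dlw_dvd_ord_incl (Nat.mul_dvd_mul_right (Dvd.intro e rfl : M ∣ M * e) 𝔓.p) Y hdiv) ∉
      s33gC 𝔓 (M * e) hMe)
    (hE1 : DlsEis 𝔓 (M * e) hMe f
      (dlwInclU (Nat.mul_dvd_mul_right (Dvd.intro e rfl : M ∣ M * e) 𝔓.p) Y))
    (hE2 : DlsEis 𝔓 (M * e) hMe f (dleWU (M * e) 𝔓.p hMe
      (dlwInclU (Nat.mul_dvd_mul_right (Dvd.intro e rfl : M ∣ M * e) 𝔓.p) Y))) :
    ∃ (g : CuspForm (Gamma0 M) 2) (𝔪 : Ideal (integralClosure ℤ ℂ)),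
      g.IsNormalizedEigenform ∧ 𝔪.IsMaximal ∧ (𝔓.p : integralClosure ℤ ℂ) ∈ 𝔪 ∧
      ∀ ℓ ∈ 𝓛, ∃ c : integralClosure ℤ ℂ, (c : ℂ) = qCoeff g ℓ ∧
        c - ((a ℓ : ℤ) : integralClosure ℤ ℂ) ∈ 𝔪 := by
  have hm := 𝔓.hp.ne_zero
  set hdvd : M * 𝔓.p ∣ M * e * 𝔓.p := Nat.mul_dvd_mul_right (Dvd.intro e rfl : M ∣ M * e) 𝔓.p
  set Y'' := dlwInclU hdvd Y with hY''
  have hdiv'' := dlw_dvd_ord_incl hdvd Y hdiv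
  -- the eigen-relations at the rigid level
  have hT'' : ∀ (ℓ : ℕ) (hℓ : ℓ.Prime), ℓ ∈ 𝓛 →
      heckeOperatorBar (M * e * 𝔓.p) ⟨ℓ, hℓ⟩ (alpfClass hm Y'' hdiv'') =
        (a ℓ : ℤ) • alpfClass hm Y'' hdiv'' := by
    intro ℓ hℓ hℓ𝓛
    rw [← dlwPullDvd_class hdvd hm Y hdiv, ← dlwPullDvd_hecke hdvd hℓ (h𝓛 ℓ hℓ𝓛).2,
      heig ℓ hℓ hℓ𝓛, map_zsmul]
  have hH := dlh_heckeOrd 𝔓 (M * e) hMe h49
  obtain ⟨hℓ₀p, hℓ₀N⟩ := h𝓛 ℓ₀ hℓ₀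
  haveI : Fact ℓ₀.Prime := ⟨hℓ₀p⟩
  -- slopes on `Z_∞`
  have hsInf := dle_eisenstein_int 𝔓 (M * e) hMe hH f hfh Y'' hdiv'' hE1 hℓ₀p hℓ₀N (a ℓ₀)
    (hT'' ℓ₀ hℓ₀p hℓ₀) hne
  -- slopes on `Z_0`
  have hsZero := dle_eisenstein_int 𝔓 (M * e) hMe hH f hfh (dleWU (M * e) 𝔓.p hMe Y'')
    (dle_dvd_ord_w (M * e) 𝔓.p hMe Y'' hdiv'') hE2 hℓ₀p hℓ₀N (a ℓ₀)
    (dle_class_w_eigen_int (M * e) 𝔓.p ℓ₀ hMe hm hℓ₀N Y'' hdiv'' (a ℓ₀) (hT'' ℓ₀ hℓ₀p hℓ₀)) hne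
  refine dle_geoB hp5 M e he hMe h49 𝓛
    (fun ℓ hℓ => ⟨(h𝓛 ℓ hℓ).1, fun h1 => (h𝓛 ℓ hℓ).2 (h1.trans hdvd)⟩) a Y hdiv heig Y''
    (coe_dlwInclU hdvd Y) hdiv'' hC hsInf hsZero

end

end Fermat.Agent.Delta
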