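/-
DELTA / END (helper9): **the copy of `E[p]` meets the formal part in the cyclotomic line only**.

`𝔓 : FFPlace`, `N'` a rigid level prime to `𝔓.p` (`4 ∣ N'` or `9 ∣ N'`), `C = s33gC 𝔓 N' h` the formal
(toric) part of `J₀(N' p)`.  Let `V ⊂ J₀(N' p)[p]` be a subgroup of order `p²`, `L₁ ≤ V` a subgroup
of order `p` such that the inertia group `𝔓.I` acts trivially on `V / L₁` and through the
cyclotomic character on `L₁` (the data of helper4's `DlwPeu`).  Then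

* `L₁ ≤ C` : for `σ ∈ I` with `σ ζ = ζ ^ k`, `k ≢ 1`, `(k - 1) l = σ l - l ∈ C` by (F12)
  (`s33g_F12`);
* `V ⊓ C ≤ L₁` : otherwise `V ≤ C[p]` (orders), and (F3) (`s33c_F3_of_model`, from the connected
  model `s33w_model_final` of `C[p]`) applied to `A = L₁ ≤ B = V` gives `V ≤ L₁`.

So a point `x ∈ V ∖ L₁` has a class outside the formal part: the hypothesis `hC` of `dle_geoB`/
`dle_endB`.
-/
import Mathlib
import Fermat.Agent.Lib.S33.Wire.Final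
import Fermat.Agent.Lib.Delta.Wire.D1
import Fermat.Agent.Lib.Delta.Peu.Plane
import Fermat.Agent.Lib.Delta.Peu.Leg

set_option autoImplicit false
set_option linter.unusedSectionVars false
set_option linter.unusedVariables false
set_option linter.style.haveILetI false
set_option synthInstance.maxHeartbeats 400000

namespace Fermat.Agent.Delta

open AlgebraicCurve ModularCurve Fermat.Agent.T1 Fermat.Agent.TW Fermat.Agent.S33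
  Fermat.Agent.T2 Fermat.Agent.S33Q Fermat.Agent.S24Lib Fermat.Agent.S33W Fermat.Agent.S33C

local notation "Qb" => AlgebraicClosure ℚ
local notation "GQ" => (AlgebraicClosure ℚ ≃ₐ[ℚ] AlgebraicClosure ℚ)

noncomputable section

attribute [local instance] s33g_neZero

section Model

attribute [local instance] t2i_dvr t2i_isAlgClosed t2i_charP t2i_fact

variable (𝔓 : FFPlace) (N' : ℕ) [NeZero N'] (h : ¬ 𝔓.p ∣ N')

set_option maxHeartbeats 1600000 in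
/-- the connected model of `C[p]` at every rigid level (`4 ∣ N'` or `9 ∣ N'`) -/
theorem dle_model_rigid (h49 : 4 ∣ N' ∨ 9 ∣ N') : S33wModel 𝔓 N' h := by
  obtain ⟨n, su, hsx, -, -, -, hsxb⟩ := s33q_exists_setup 𝔓 N' h h49
  have hsx' : su.x = s33biX 𝔓 N' h := hsx
  rw [s33w_xi_eq] at hsxb
  exact s33w_model_of_setup' 𝔓 N' h su hsx' hsxb

end Model

section Inter

variable (𝔓 : FFPlace) (N' : ℕ) [NeZero N'] (h : ¬ 𝔓.p ∣ N')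

/-- the cyclotomic line lies in the formal part -/
theorem dle_line_le_formal (hp2 : 2 < 𝔓.p) {ζ : Qb} (hζ : IsPrimitiveRoot ζ 𝔓.p)
    (L₁ : AddSubgroup (JZero (N' * 𝔓.p))) (htor : ∀ l ∈ L₁, 𝔓.p • l = 0)
    (hcyc : ∀ σ ∈ 𝔓.I, ∀ k : ℕ, σ ζ = ζ ^ k → ∀ l ∈ L₁, σ • l = k • l) :
    L₁ ≤ s33gC 𝔓 N' h := by
  intro l hl
  have hp := 𝔓.hp
  haveI : NeZero 𝔓.p := ⟨hp.ne_zero⟩
  obtain ⟨σ, hσ, hσζ⟩ := dlp_exists_inertia_moving_zeta 𝔓 (by omega) hζ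
  obtain ⟨k, hk, hkζ⟩ := hζ.eq_pow_of_pow_eq_one (ξ := σ ζ)
    (by rw [← map_pow, hζ.pow_eq_one, map_one])
  have h1 := hcyc σ hσ k hkζ.symm l hl
  have h2 := s33g_F12 𝔓 N' h σ hσ 1 l (by rw [pow_one]; exact htor l hl)
  rw [h1] at h2
  -- `k ≢ 1 (mod p)`
  have hk1 : ¬ ((𝔓.p : ℕ) : ℤ) ∣ (k : ℤ) - 1 := by
    intro hdvd
    have hk1 : k = 1 := by
      obtain ⟨c, hc⟩ := hdvd
      have hpz : (0 : ℤ) < 𝔓.p := by exact_mod_cast hp.pos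
      have hkz : (k : ℤ) < 𝔓.p := by exact_mod_cast hk
      have hk0 : (0 : ℤ) ≤ k := Int.natCast_nonneg k
      have hc0 : c = 0 := by
        by_contra hc0
        rcases lt_or_gt_of_ne hc0 with hneg | hpos
        · have : (𝔓.p : ℤ) * c ≤ (𝔓.p : ℤ) * (-1) := by
            apply mul_le_mul_of_nonneg_left _ hpz.le
            omega
          have h3 : (3 : ℤ) ≤ 𝔓.p := by exact_mod_cast hp2
          linarith
        · have : (𝔓.p : ℤ) * 1 ≤ (𝔓.p : ℤ) * c := by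
            apply mul_le_mul_of_nonneg_left _ hpz.le
            omega
          linarith
      rw [hc0, mul_zero] at hc
      have : (k : ℤ) = 1 := by linarith
      exact_mod_cast this
    rw [hk1, pow_one] at hkζ
    exact hσζ hkζ.symm
  -- Bézout
  have hcop : IsCoprime ((𝔓.p : ℕ) : ℤ) ((k : ℤ) - 1) :=
    (Prime.coprime_iff_not_dvd (Nat.prime_iff_prime_int.mp hp)).mpr hk1
  obtain ⟨a, b, hab⟩ := hcop
  have h3 : ((k : ℤ) - 1) • l ∈ s33gC 𝔓 N' h := by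
    rw [sub_zsmul, natCast_zsmul, one_zsmul]
    simpa [sub_eq_add_neg] using h2
  have h4 : l = b • (((k : ℤ) - 1) • l) := by
    have h5 : ((𝔓.p : ℕ) : ℤ) • l = 0 := by rw [natCast_zsmul]; exact htor l hl
    calc l = (1 : ℤ) • l := (one_zsmul l).symm
      _ = (a * ((𝔓.p : ℕ) : ℤ) + b * ((k : ℤ) - 1)) • l := by rw [hab]
      _ = b • (((k : ℤ) - 1) • l) := by
        rw [add_zsmul, mul_zsmul, h5, zsmul_zero, zero_add, mul_zsmul]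
  rw [h4]
  exact (s33gC 𝔓 N' h).zsmul_mem h3 b

/-- **`V ⊓ C = L₁`**: the copy `V` of `E[p]` meets the formal part in the cyclotomic line -/
theorem dle_formal_inter (h49 : 4 ∣ N' ∨ 9 ∣ N') (hp2 : 2 < 𝔓.p) {ζ : Qb}
    (hζ : IsPrimitiveRoot ζ 𝔓.p) (V L₁ : AddSubgroup (JZero (N' * 𝔓.p))) (hLV : L₁ ≤ V)
    (hV : Nat.card V = 𝔓.p ^ 2) (hL : Nat.card L₁ = 𝔓.p) (htor : ∀ x ∈ V, 𝔓.p • x = 0)
    (htriv : ∀ σ ∈ 𝔓.I, ∀ x ∈ V, σ • x - x ∈ L₁)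
    (hcyc : ∀ σ ∈ 𝔓.I, ∀ k : ℕ, σ ζ = ζ ^ k → ∀ l ∈ L₁, σ • l = k • l) :
    L₁ ≤ s33gC 𝔓 N' h ∧ ∀ x ∈ V, x ∈ s33gC 𝔓 N' h → x ∈ L₁ := by
  have hp := 𝔓.hp
  have hLC : L₁ ≤ s33gC 𝔓 N' h :=
    dle_line_le_formal 𝔓 N' h hp2 hζ L₁ (fun l hl => htor l (hLV hl)) hcyc
  refine ⟨hLC, fun x hxV hxC => ?_⟩
  by_contra hxL
  -- `V ≤ C`
  have hVC : V ⊓ s33gC 𝔓 N' h = V :=
    dlp_eq_of_lt hp hV hL (le_inf hLV hLC) inf_le_left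
      (AddSubgroup.mem_inf.mpr ⟨hxV, hxC⟩) hxL
  have hVC' : ∀ y ∈ V, y ∈ s33wCp 𝔓 N' h := by
    intro y hy
    have : y ∈ V ⊓ s33gC 𝔓 N' h := by rw [hVC]; exact hy
    exact ⟨(AddSubgroup.mem_inf.mp this).2, htor y hy⟩
  -- (F3)
  obtain ⟨M, hM⟩ := dle_model_rigid 𝔓 N' h h49
  haveI := s33w_Cp_finite 𝔓 N' h
  let ev : (Fin 1 → JZero (N' * 𝔓.p)) →+ JZero (N' * 𝔓.p) :=
    Pi.evalAddMonoidHom (fun _ : Fin 1 => JZero (N' * 𝔓.p)) 0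
  have hF3 := s33c_F3_of_model (s33wCp 𝔓 N' h) (s33wActC 𝔓 N' h)
    (fun σ hσ y => s33wActC_coe 𝔓 N' h hσ y) M hM hp2 1 (L₁.comap ev) (V.comap ev)
    (AddSubgroup.comap_mono hLV)
    (fun y hy i => by
      have hi : i = 0 := Subsingleton.elim i 0
      rw [hi]
      exact hVC' _ hy)
    (fun σ hσ y hy => by
      rw [AddSubgroup.mem_comap]
      show (σ • y - y) 0 ∈ L₁
      rw [Pi.sub_apply, Pi.smul_apply]
      exact htriv σ hσ _ hy)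
  have hx1 : (fun _ : Fin 1 => x) ∈ V.comap ev := by
    rw [AddSubgroup.mem_comap]
    exact hxV
  exact hxL (hF3 hx1)

/-- **the hypothesis `hC`**: a point of `V` outside the cyclotomic line is outside the formal
part -/
theorem dle_not_formal (h49 : 4 ∣ N' ∨ 9 ∣ N') (hp2 : 2 < 𝔓.p) {ζ : Qb}
    (hζ : IsPrimitiveRoot ζ 𝔓.p) (V L₁ : AddSubgroup (JZero (N' * 𝔓.p))) (hLV : L₁ ≤ V)
    (hV : Nat.card V = 𝔓.p ^ 2) (hL : Nat.card L₁ = 𝔓.p) (htor : ∀ x ∈ V, 𝔓.p • x = 0)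
    (htriv : ∀ σ ∈ 𝔓.I, ∀ x ∈ V, σ • x - x ∈ L₁)
    (hcyc : ∀ σ ∈ 𝔓.I, ∀ k : ℕ, σ ζ = ζ ^ k → ∀ l ∈ L₁, σ • l = k • l)
    {x : JZero (N' * 𝔓.p)} (hx : x ∈ V) (hxL : x ∉ L₁) : x ∉ s33gC 𝔓 N' h := fun hxC =>
  hxL ((dle_formal_inter 𝔓 N' h h49 hp2 hζ V L₁ hLV hV hL htor htriv hcyc).2 x hx hxC)

/-- the `DlwPeu` form: the line of `DlwPeu` is `V ⊓ C` -/
theorem dle_peu_formal (h49 : 4 ∣ N' ∨ 9 ∣ N') (hp2 : 2 < 𝔓.p) {ζ : Qb}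
    (hζ : IsPrimitiveRoot ζ 𝔓.p) (V : AddSubgroup (JZero (N' * 𝔓.p)))
    (hV : Nat.card V = 𝔓.p ^ 2) (htor : ∀ x ∈ V, 𝔓.p • x = 0)
    (hpeu : DlwPeu V 𝔓 𝔓.p ζ) :
    ∃ (L₁ : AddSubgroup (JZero (N' * 𝔓.p))) (u w : Qb), L₁ ≤ V ∧ Nat.card L₁ = 𝔓.p ∧
      (∀ σ ∈ 𝔓.I, ∀ x ∈ V, σ • x - x ∈ L₁) ∧
      (∀ σ ∈ 𝔓.I, ∀ k : ℕ, σ ζ = ζ ^ k → ∀ l ∈ L₁, σ • l = k • l) ∧
      𝔓.v.Is u 0 ∧ (∀ σ ∈ 𝔓.I, σ ζ = ζ → σ u = u) ∧ w ^ 𝔓.p = u ∧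
      (∀ σ ∈ 𝔓.I, σ ζ = ζ → σ w = w → ∀ x ∈ V, σ • x = x) ∧
      L₁ ≤ s33gC 𝔓 N' h ∧ (∀ x ∈ V, x ∈ s33gC 𝔓 N' h → x ∈ L₁) ∧
      (∀ x ∈ V, x ∉ L₁ → x ∉ s33gC 𝔓 N' h) := by
  obtain ⟨L₁, u, w, h1, h2, h3, h4, h5, h6, h7, h8⟩ := hpeu
  have key := dle_formal_inter 𝔓 N' h h49 hp2 hζ V L₁ h1 hV h2 htor h3 h4
  exact ⟨L₁, u, w, h1, h2, h3, h4, h5, h6, h7, h8, key.1, key.2,
    fun x hx hxL hxC => hxL (key.2 x hx hxC)⟩

end Inter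

end

end Fermat.Agent.Delta
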