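/-
DELTA / I6, package (END), hand-off (V1) (helper6): **the vertical unit is a multiplicative Eisenstein
eigenfunction** — the `hecke` field of `DlsVert`.

For ANY unit `f` of the function field of `X₀(N)` over `ℚ̄` whose `q`-expansion is
`unitFinLS Qb r = Δ(q)/Δ(q^r)` (`r ∣ N`), and any prime `ℓ ∤ N`:  `T_ℓ^fun f = f ^ (ℓ + 1)`
(`dle_vert_hecke_eq`), hence the literal `DlsVert.hecke` statement with `c = 1`, `u = 1`
(`dle_vert_hecke`).  Proof: `f · U_r = r^12` with `U_r = mzgU N r _` (`T_ℓ^fun U_r = U_r^(ℓ+1)`,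
lead's `mze3_hecke_U`), `T_ℓ^fun` is multiplicative and `T_ℓ^fun c = c^(ℓ+1)` on constants.

Also: a concrete such unit `dleVertU N r hr` (`= r^12 / U_r`), `coe_dleVertU`.
-/
import Fermat.Agent.Lib.Mazur.E.Cusp3.Hecke
import Fermat.Agent.Lib.Delta.Slope.Red

set_option autoImplicit false
set_option linter.style.haveILetI false
set_option linter.unusedSectionVars false
set_option linter.unusedVariables false
set_option synthInstance.maxHeartbeats 400000

open HahnSeries ModularCurve Fermat.Agent.T1 Fermat.Agent.Igusa Fermat.Agent.Mazur Fermat.Agent.TW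

noncomputable section

namespace Fermat.Agent.Delta

local notation "Qb" => AlgebraicClosure ℚ

section General

variable (N : ℕ) [NeZero N]

theorem dle_coe_algebraMap (c : Qb) :
    ((algebraMap Qb ↥(modularFunctionFieldBar N) c : ↥(modularFunctionFieldBar N)) :
      LaurentSeries Qb) = HahnSeries.C c := by
  rw [HahnSeries.C_apply, ← algebraMap_laurentSeries_eq_single]
  rfl

/-- **`T_ℓ^fun` on constants**: `T_ℓ^fun c = c ^ (ℓ + 1)` -/
theorem dle_hecke_const {l : ℕ} (hl : l.Prime) (hlN : ¬ l ∣ N) (c : Qb) :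
    tkrHecke N l (algebraMap Qb ↥(modularFunctionFieldBar N) c) =
      algebraMap Qb ↥(modularFunctionFieldBar N) (c ^ (l + 1)) := by
  haveI : NeZero l := ⟨hl.ne_zero⟩
  obtain ⟨ζ, hζ, -⟩ := tkr_exists_zeta l
  refine tkrHecke_eq_of_spec hl hlN hζ _ _ ?_
  rw [dle_coe_algebraMap, dle_coe_algebraMap, qExpand_C, qExpand_C]
  simp only [tkrTw_C, Finset.prod_const, Finset.card_univ, Fintype.card_fin]
  rw [← map_pow, ← map_mul, pow_succ, mul_comm]

variable (r : ℕ) [NeZero r] (hr : r ∣ N)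

theorem dle_mzgU_ne_zero : mzgU N r hr ≠ 0 := by
  intro h
  have h1 := congrArg (fun z : ↥(modularFunctionFieldBar N) => (z : LaurentSeries Qb)) h
  simp only [coe_mzgU] at h1
  have h2 := unitFinLS_mul_unitInfLS (K := Qb) r
  rw [h1] at h2
  have h3 : ((r : Qb) ^ 12) = 0 := by
    have := congrArg (fun z : LaurentSeries Qb => z.coeff 0) h2
    simpa using this.symm
  exact pow_ne_zero 12 (Nat.cast_ne_zero.mpr (NeZero.ne r)) h3

/-- a function with `q`-expansion `Δ(q)/Δ(q^r)` is `r^12 / U_r` -/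
theorem dle_vert_mul_U (f : ↥(modularFunctionFieldBar N))
    (hf : (f : LaurentSeries Qb) = unitFinLS Qb r) :
    f * mzgU N r hr = algebraMap Qb ↥(modularFunctionFieldBar N) ((r : Qb) ^ 12) := by
  apply Subtype.ext
  rw [dle_coe_algebraMap]
  push_cast
  rw [hf, coe_mzgU, unitFinLS_mul_unitInfLS]

include hr in
/-- **`T_ℓ^fun f = f ^ (ℓ + 1)`** for a function `f` with `q`-expansion `Δ(q)/Δ(q^r)` -/
theorem dle_vert_hecke_eq (f : ↥(modularFunctionFieldBar N))
    (hf : (f : LaurentSeries Qb) = unitFinLS Qb r) {l : ℕ} (hl : l.Prime) (hlN : ¬ l ∣ N) :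
    tkrHecke N l f = f ^ (l + 1) := by
  have h1 := dle_vert_mul_U N r hr f hf
  have h2 := congrArg (tkrHecke N l) h1
  rw [map_mul, mze3_hecke_U N r hr hl hlN, dle_hecke_const N hl hlN, map_pow, ← h1, mul_pow] at h2
  exact mul_right_cancel₀ (pow_ne_zero _ (dle_mzgU_ne_zero N r hr)) h2

/-- the concrete vertical function `r^12 / U_r` -/
def dleVertF : ↥(modularFunctionFieldBar N) :=
  algebraMap Qb ↥(modularFunctionFieldBar N) ((r : Qb) ^ 12) * (mzgU N r hr)⁻¹

theorem dleVertF_mul_U :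
    dleVertF N r hr * mzgU N r hr = algebraMap Qb ↥(modularFunctionFieldBar N) ((r : Qb) ^ 12) := by
  rw [dleVertF, mul_assoc, inv_mul_cancel₀ (dle_mzgU_ne_zero N r hr), mul_one]

theorem coe_dleVertF :
    ((dleVertF N r hr : ↥(modularFunctionFieldBar N)) : LaurentSeries Qb) = unitFinLS Qb r := by
  have h1 := congrArg (fun z : ↥(modularFunctionFieldBar N) => (z : LaurentSeries Qb))
    (dleVertF_mul_U N r hr)
  simp only [dle_coe_algebraMap] at h1
  push_cast at h1
  rw [coe_mzgU, ← unitFinLS_mul_unitInfLS (K := Qb) r] at h1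
  have h0 : unitInfLS Qb r ≠ 0 := by
    have := dle_mzgU_ne_zero N r hr
    intro h
    apply this
    apply Subtype.ext
    rw [coe_mzgU, h]
    rfl
  exact mul_right_cancel₀ h0 h1

theorem dleVertF_ne_zero : dleVertF N r hr ≠ 0 :=
  mul_ne_zero ((map_ne_zero _).mpr (pow_ne_zero 12 (Nat.cast_ne_zero.mpr (NeZero.ne r))))
    (inv_ne_zero (dle_mzgU_ne_zero N r hr))

/-- the concrete vertical unit -/
def dleVertU : (↥(modularFunctionFieldBar N))ˣ := Units.mk0 _ (dleVertF_ne_zero N r hr)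

theorem coe_dleVertU :
    (((dleVertU N r hr : (↥(modularFunctionFieldBar N))ˣ) : ↥(modularFunctionFieldBar N)) :
      LaurentSeries Qb) = unitFinLS Qb r :=
  coe_dleVertF N r hr

end General

section Vert

theorem dle_neZero_p (𝔓 : FFPlace) : NeZero 𝔓.p := ⟨𝔓.hp.ne_zero⟩

attribute [local instance] Fermat.Agent.S33.s33g_neZero dle_neZero_p

variable (𝔓 : FFPlace) (N' : ℕ) [NeZero N']

/-- **(V1)** the `hecke` field of `DlsVert 𝔓 N' h f`, for any unit `f` with `q`-expansion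
`Δ(q)/Δ(q^p)` (`c = 1`, `u = 1`) -/
theorem dle_vert_hecke (f : (↥(modularFunctionFieldBar (N' * 𝔓.p)))ˣ)
    (hf : ((f : ↥(modularFunctionFieldBar (N' * 𝔓.p))) : LaurentSeries Qb) =
      unitFinLS Qb 𝔓.p) :
    ∀ ℓ : ℕ, ℓ.Prime → ¬ ℓ ∣ N' * 𝔓.p →
      ∃ (c : Qbˣ) (u : (↥(modularFunctionFieldBar (N' * 𝔓.p)))ˣ),
        tkrHecke (N' * 𝔓.p) ℓ (f : ↥(modularFunctionFieldBar (N' * 𝔓.p))) =
          algebraMap Qb _ (c : Qb) * ((f ^ (ℓ + 1) * u ^ 𝔓.p :
            (↥(modularFunctionFieldBar (N' * 𝔓.p)))ˣ) : ↥(modularFunctionFieldBar (N' * 𝔓.p))) := by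
  intro ℓ hℓ hℓN
  refine ⟨1, 1, ?_⟩
  rw [dle_vert_hecke_eq (N' * 𝔓.p) 𝔓.p (dvd_mul_left 𝔓.p N') _ hf hℓ hℓN, Units.val_one, map_one,
    one_mul, one_pow, mul_one, Units.val_pow_eq_pow_val]

end Vert

end Fermat.Agent.Delta
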