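/-
DELTA / I6, package (END), part (WS) (helper3): **the Atkin–Lehner involution `w_p` on `J₀(N' p)`**
(pull-back of divisor classes along `t2w`) and the transport of the branch-B structure
`(V, ψ, Galois, Hecke, push-forwards, peu ramifiée)` along it.

* `dleWJ N' p h : JZero (N' * p) →+ JZero (N' * p)`;
* `dleWJ_class` : `W [div(Y)/m] = [div(w_p Y)/m]`;
* `dleWJ_galois` : `W` is Galois-equivariant;
* `dleWJ_dleWJ` : `W ∘ W = id` on torsion classes; `dleWJ_eq_zero`;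
* `dleWJ_hecke` : `T_ℓ ∘ W = W ∘ T_ℓ` on torsion classes (`ℓ ∤ N' p`);
* `dleWJ_pushB`, `dleWJ_pushA` : `β_* ∘ W = α_*`, `α_* ∘ W = β_*` on torsion classes;
* `dle_wside` : the transported structure `V.map W`;
* `dle_peu_map` : `DlwPeu` is transported by Galois-equivariant additive maps injective on `V`.
-/
import Mathlib
import Fermat.Agent.Lib.Delta.End.WHecke
import Fermat.Agent.Lib.Delta.Wire.BranchB
import Fermat.Agent.Lib.Delta.Wire.D1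
import Fermat.Agent.Lib.T2.AL.Comm

set_option autoImplicit false
set_option linter.unusedSectionVars false
set_option linter.unusedVariables false
set_option linter.style.haveILetI false
set_option synthInstance.maxHeartbeats 400000

namespace Fermat.Agent.Delta

open AlgebraicCurve ModularCurve Fermat.Agent.Curve Fermat.Agent.T1 Fermat.Agent.T3
  Fermat.Agent.Alpha Fermat.Agent.T2 HahnSeries Fermat.Agent.S24Lib Fermat.Agent.T1.KMod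
  Fermat.Agent.TW

local notation "Qb" => AlgebraicClosure ℚ
local notation "GQ" => (AlgebraicClosure ℚ ≃ₐ[ℚ] AlgebraicClosure ℚ)

noncomputable section

variable (N' p : ℕ) [NeZero N'] [hp : Fact p.Prime] (h : ¬ p ∣ N')

/-! ### The involution on `J₀(N' p)` -/

theorem dle_w_fundamental : FundamentalIdentityAlong Qb
    (((t2w Qb N' p h : ↥(modularFunctionFieldBar (N' * p)) ≃ₐ[Qb]
      ↥(modularFunctionFieldBar (N' * p))) : ↥(modularFunctionFieldBar (N' * p)) →ₐ[Qb]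
      ↥(modularFunctionFieldBar (N' * p)))) (dle_w_integral N' p h) :=
  t3h_fundamentalIdentityAlong (t3h_gen (N' * p)) (t3h_gen (N' * p)) _ _

/-- **`w_p` on `J₀(N' p)`** (pull-back of divisor classes) -/
def dleWJ : JZero (N' * p) →+ JZero (N' * p) :=
  t3pPullAlong (((t2w Qb N' p h : ↥(modularFunctionFieldBar (N' * p)) ≃ₐ[Qb]
      ↥(modularFunctionFieldBar (N' * p))) : ↥(modularFunctionFieldBar (N' * p)) →ₐ[Qb]
      ↥(modularFunctionFieldBar (N' * p)))) (dle_w_integral N' p h) (dle_w_fundamental N' p h)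

/-- `W [div(Y)/m] = [div(w_p Y)/m]` -/
theorem dleWJ_class {m : ℕ} (hm : m ≠ 0) (Y : (↥(modularFunctionFieldBar (N' * p)))ˣ)
    (hY : ∀ v : Place Qb ↥(modularFunctionFieldBar (N' * p)),
      (m : ℤ) ∣ v.ord (Y : ↥(modularFunctionFieldBar (N' * p)))) :
    dleWJ N' p h (alpfClass hm Y hY) =
      alpfClass hm (dleWU N' p h Y) (dle_dvd_ord_w N' p h Y hY) :=
  dlwPullAlong_class _ (dle_w_integral N' p h) (dle_w_fundamental N' p h) hm Y hY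

/-- `W` is Galois equivariant -/
theorem dleWJ_galois (σ : GQ) (x : JZero (N' * p)) :
    dleWJ N' p h (σ • x) = σ • dleWJ N' p h x := by
  rw [galois_smul_pic0_def, galois_smul_pic0_def]
  exact t3pPullAlong_smul _ _ _ (fun y => (t2w_comm_smul Qb N' p h σ y).symm) x

theorem dleWU_dleWU (Y : (↥(modularFunctionFieldBar (N' * p)))ˣ) :
    dleWU N' p h (dleWU N' p h Y) = Y :=
  Units.ext (t2w_t2w Qb N' p h _)

/-- `W ∘ W = id` on torsion classes -/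
theorem dleWJ_dleWJ {m : ℕ} (hm : m ≠ 0) (x : JZero (N' * p)) (hx : (m : ℤ) • x = 0) :
    dleWJ N' p h (dleWJ N' p h x) = x := by
  obtain ⟨Y, hY, rfl⟩ := alpf_exists_class hm x hx
  rw [dleWJ_class, dleWJ_class]
  exact dlw_class_congr hm (dleWU_dleWU N' p h Y) _ _

theorem dleWJ_eq_zero {m : ℕ} (hm : m ≠ 0) (x : JZero (N' * p)) (hx : (m : ℤ) • x = 0)
    (h0 : dleWJ N' p h x = 0) : x = 0 := by
  rw [← dleWJ_dleWJ N' p h hm x hx, h0, map_zero]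

/-- `T_ℓ ∘ W = W ∘ T_ℓ` on torsion classes -/
theorem dleWJ_hecke {m : ℕ} (hm : m ≠ 0) {ℓ : ℕ} (hℓ : ℓ.Prime) (hℓN : ¬ ℓ ∣ N' * p)
    (x : JZero (N' * p)) (hx : (m : ℤ) • x = 0) :
    heckeOperatorBar (N' * p) ⟨ℓ, hℓ⟩ (dleWJ N' p h x) =
      dleWJ N' p h (heckeOperatorBar (N' * p) ⟨ℓ, hℓ⟩ x) := by
  haveI : Fact ℓ.Prime := ⟨hℓ⟩
  haveI : NeZero ℓ := ⟨hℓ.ne_zero⟩
  obtain ⟨Y, hY, rfl⟩ := alpf_exists_class hm x hx
  rw [dleWJ_class,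
    dlw_class_hecke (N' * p) hℓ hℓN hm Y hY (dlw_hecke_dvd (N' * p) hℓ hℓN Y hY),
    dlw_class_hecke (N' * p) hℓ hℓN hm (dleWU N' p h Y) (dle_dvd_ord_w N' p h Y hY)
      (dlw_hecke_dvd (N' * p) hℓ hℓN _ (dle_dvd_ord_w N' p h Y hY)), dleWJ_class]
  exact dlw_class_congr hm (dle_heckeUnits_w N' p ℓ h hℓN Y) _ _

/-! ### The degeneracy push-forwards -/

/-- `N_β (w_p y) = N_α y` -/
theorem dle_norm_beta_w (y : ↥(modularFunctionFieldBar (N' * p))) :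
    t3pNormAlong (heckeBetaBar Qb N' p) (t2w Qb N' p h y) = t3pNormAlong (heckeAlphaBar Qb N' p) y := by
  have h2 := @Algebra.norm_eq_of_equiv_equiv ↥(modularFunctionFieldBar N')
    ↥(modularFunctionFieldBar (N' * p)) ↥(modularFunctionFieldBar N')
    ↥(modularFunctionFieldBar (N' * p)) _ _ _ _ (algebraAlong (heckeAlphaBar Qb N' p))
    (algebraAlong (heckeBetaBar Qb N' p)) (RingEquiv.refl _)
    (t2w Qb N' p h).toRingEquiv
    (RingHom.ext (fun z => (t2w_alpha Qb N' p h z).symm)) y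
  exact h2.symm

theorem dleWJ_pushB {m : ℕ} (hm : m ≠ 0) (x : JZero (N' * p)) (hx : (m : ℤ) • x = 0) :
    dlwPushB N' p (dleWJ N' p h x) = dlwPushA N' p x := by
  obtain ⟨Y, hY, rfl⟩ := alpf_exists_class hm x hx
  rw [dleWJ_class]
  have hB := dlwPushAlong_class (heckeBetaBar Qb N' p) (t3h_betaIntegral N' p)
    (t3h_betaFinite N' p) (t3h_betaNorm N' p) hm (dleWU N' p h Y) (dle_dvd_ord_w N' p h Y hY)
  have hA := dlwPushAlong_class (heckeAlphaBar Qb N' p) (t3h_alphaIntegral N' p)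
    (t3h_alphaFinite N' p) (t3h_alphaNorm N' p) hm Y hY
  refine hB.trans (Eq.trans ?_ hA.symm)
  refine dlw_class_congr hm ?_ _ _
  apply Units.ext
  rw [coe_dlwNormUnit, coe_dlwNormUnit, coe_dleWU]
  exact dle_norm_beta_w N' p h _

theorem dleWJ_pushA {m : ℕ} (hm : m ≠ 0) (x : JZero (N' * p)) (hx : (m : ℤ) • x = 0) :
    dlwPushA N' p (dleWJ N' p h x) = dlwPushB N' p x := by
  have hx' : (m : ℤ) • dleWJ N' p h x = 0 := by rw [← map_zsmul, hx, map_zero]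
  rw [← dleWJ_pushB N' p h hm _ hx', dleWJ_dleWJ N' p h hm x hx]

end

/-! ### Transport of subgroups along equivariant maps -/

section Map

variable {A A' : Type*} [AddCommGroup A] [AddCommGroup A'] [DistribMulAction GQ A]
  [DistribMulAction GQ A']

theorem dle_card_map (Φ : A →+ A') (V : AddSubgroup A) (hinj : ∀ x ∈ V, Φ x = 0 → x = 0) :
    Nat.card ↥(V.map Φ) = Nat.card ↥V := by
  refine (Nat.card_congr (Equiv.ofBijective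
    (fun x : ↥V => (⟨Φ (x : A), AddSubgroup.mem_map_of_mem Φ x.2⟩ : ↥(V.map Φ))) ⟨?_, ?_⟩)).symm
  · intro x y hxy
    have h1 : Φ (x : A) = Φ (y : A) := congrArg Subtype.val hxy
    have h2 : ((x - y : ↥V) : A) = 0 := by
      apply hinj _ (x - y).2
      rw [AddSubgroup.coe_sub, map_sub, h1, sub_self]
    exact sub_eq_zero.mp (Subtype.ext h2)
  · rintro ⟨y, x, hx, rfl⟩
    exact ⟨⟨x, hx⟩, rfl⟩

theorem dle_not_mem_map (Φ : A →+ A') (V L₁ : AddSubgroup A) (hLV : L₁ ≤ V)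
    (hinj : ∀ x ∈ V, Φ x = 0 → x = 0) {x : A} (hx : x ∈ V) (hxL : x ∉ L₁) :
    Φ x ∉ L₁.map Φ := by
  rintro ⟨l, hl, hlx⟩
  have h1 : l - x = 0 := by
    apply hinj _ (V.sub_mem (hLV hl) hx)
    rw [map_sub, hlx, sub_self]
  rw [sub_eq_zero] at h1
  exact hxL (h1 ▸ hl)

/-- **transport of the clauses of `DlwPeu`, with the line kept explicit** -/
theorem dle_peu_map_line (Φ : A →+ A') (hΦ : ∀ (σ : GQ) (x : A), Φ (σ • x) = σ • Φ x)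
    (V L₁ : AddSubgroup A) (hinj : ∀ x ∈ V, Φ x = 0 → x = 0) {𝔓 : FFPlace} {p : ℕ} {ζ u w : Qb}
    (h : L₁ ≤ V ∧ Nat.card L₁ = p ∧
      (∀ σ ∈ 𝔓.I, ∀ x ∈ V, σ • x - x ∈ L₁) ∧
      (∀ σ ∈ 𝔓.I, ∀ k : ℕ, σ ζ = ζ ^ k → ∀ l ∈ L₁, σ • l = k • l) ∧
      𝔓.v.Is u 0 ∧ (∀ σ ∈ 𝔓.I, σ ζ = ζ → σ u = u) ∧ w ^ p = u ∧
      (∀ σ ∈ 𝔓.I, σ ζ = ζ → σ w = w → ∀ x ∈ V, σ • x = x)) :
    L₁.map Φ ≤ V.map Φ ∧ Nat.card ↥(L₁.map Φ) = p ∧
      (∀ σ ∈ 𝔓.I, ∀ x ∈ V.map Φ, σ • x - x ∈ L₁.map Φ) ∧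
      (∀ σ ∈ 𝔓.I, ∀ k : ℕ, σ ζ = ζ ^ k → ∀ l ∈ L₁.map Φ, σ • l = k • l) ∧
      𝔓.v.Is u 0 ∧ (∀ σ ∈ 𝔓.I, σ ζ = ζ → σ u = u) ∧ w ^ p = u ∧
      (∀ σ ∈ 𝔓.I, σ ζ = ζ → σ w = w → ∀ x ∈ V.map Φ, σ • x = x) := by
  obtain ⟨h1, h2, h3, h4, h5, h6, h7, h8⟩ := h
  refine ⟨AddSubgroup.map_mono h1, ?_, ?_, ?_, h5, h6, h7, ?_⟩
  · rw [dle_card_map Φ L₁ (fun x hx => hinj x (h1 hx)), h2]
  · rintro σ hσ _ ⟨x, hx, rfl⟩
    refine ⟨σ • x - x, h3 σ hσ x hx, ?_⟩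
    rw [map_sub, hΦ]
  · rintro σ hσ k hk _ ⟨l, hl, rfl⟩
    rw [← hΦ, h4 σ hσ k hk l hl, map_nsmul]
  · rintro σ hσ hσζ hσw _ ⟨x, hx, rfl⟩
    rw [← hΦ, h8 σ hσ hσζ hσw x hx]

/-- **`DlwPeu` is transported by Galois-equivariant additive maps injective on `V`** -/
theorem dle_peu_map (Φ : A →+ A') (hΦ : ∀ (σ : GQ) (x : A), Φ (σ • x) = σ • Φ x)
    (V : AddSubgroup A) (hinj : ∀ x ∈ V, Φ x = 0 → x = 0) {𝔓 : FFPlace} {p : ℕ} {ζ : Qb}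
    (h : DlwPeu V 𝔓 p ζ) : DlwPeu (V.map Φ) 𝔓 p ζ := by
  obtain ⟨L₁, u, w, h'⟩ := h
  exact ⟨L₁.map Φ, u, w, dle_peu_map_line Φ hΦ V L₁ hinj h'⟩

end Map

/-! ### The `w`-side of the branch-B structure -/

section WSide

variable (K : ℕ) [NeZero K] (p : ℕ) [hp : Fact p.Prime] (hpK : ¬ p ∣ K)

/-- **the `w_p`-transport of the branch-B structure**: `V.map W` is again a Galois-equivariant copy
of `T`, with the same Hecke eigenvalues, killed by both degeneracy push-forwards -/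
theorem dle_wside {T : Type*} [AddCommGroup T] [SMul GQ T]
    (good : ℕ → Prop) (a : ℕ → ℤ)
    (V : AddSubgroup (JZero (K * p))) (ψ : T ≃+ ↥V) (htor : ∀ x ∈ V, p • x = 0)
    (hstab : ∀ σ : GQ, ∀ x ∈ V, σ • x ∈ V)
    (hψ : ∀ (σ : GQ) (Q : T), ((ψ (σ • Q) : ↥V) : JZero (K * p)) = σ • ((ψ Q : ↥V) : JZero (K * p)))
    (heig : ∀ (ℓ : ℕ) (hℓ : ℓ.Prime), ¬ ℓ ∣ K * p → good ℓ → ℓ ≠ p →
      ∀ x ∈ V, heckeOperatorBar (K * p) ⟨ℓ, hℓ⟩ x = a ℓ • x)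
    (hA : ∀ x ∈ V, dlwPushA K p x = 0) (hB : ∀ x ∈ V, dlwPushB K p x = 0) :
    (∀ x ∈ V, dleWJ K p hpK x = 0 → x = 0) ∧
    ∃ ψ' : T ≃+ ↥(V.map (dleWJ K p hpK)),
      (∀ x ∈ V.map (dleWJ K p hpK), p • x = 0) ∧
      (∀ σ : GQ, ∀ x ∈ V.map (dleWJ K p hpK), σ • x ∈ V.map (dleWJ K p hpK)) ∧
      (∀ (σ : GQ) (Q : T), ((ψ' (σ • Q) : ↥(V.map (dleWJ K p hpK))) : JZero (K * p))
        = σ • ((ψ' Q : ↥(V.map (dleWJ K p hpK))) : JZero (K * p))) ∧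
      (∀ (ℓ : ℕ) (hℓ : ℓ.Prime), ¬ ℓ ∣ K * p → good ℓ → ℓ ≠ p →
        ∀ x ∈ V.map (dleWJ K p hpK), heckeOperatorBar (K * p) ⟨ℓ, hℓ⟩ x = a ℓ • x) ∧
      (∀ x ∈ V.map (dleWJ K p hpK), dlwPushA K p x = 0) ∧
      (∀ x ∈ V.map (dleWJ K p hpK), dlwPushB K p x = 0) ∧
      (∀ Q : T, ((ψ' Q : ↥(V.map (dleWJ K p hpK))) : JZero (K * p))
        = dleWJ K p hpK ((ψ Q : ↥V) : JZero (K * p))) := by
  have hp0 : p ≠ 0 := hp.out.ne_zero
  have htor' : ∀ x ∈ V, ((p : ℕ) : ℤ) • x = 0 := fun x hx => by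
    rw [natCast_zsmul]; exact htor x hx
  have hinj : ∀ x ∈ V, dleWJ K p hpK x = 0 → x = 0 := fun x hx h0 =>
    dleWJ_eq_zero K p hpK hp0 x (htor' x hx) h0
  refine ⟨hinj, ?_⟩
  obtain ⟨ψ', hψ'⟩ := dlw_exists_map_equiv (dleWJ K p hpK) V hinj ψ
  refine ⟨ψ', ?_, ?_, ?_, ?_, ?_, ?_, hψ'⟩
  · rintro _ ⟨x, hx, rfl⟩
    rw [← map_nsmul, htor x hx, map_zero]
  · rintro σ _ ⟨x, hx, rfl⟩
    exact ⟨σ • x, hstab σ x hx, dleWJ_galois K p hpK σ x⟩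
  · intro σ Q
    rw [hψ', hψ', hψ σ Q]
    exact dleWJ_galois K p hpK σ _
  · rintro ℓ hℓ hℓK hgood hℓp _ ⟨x, hx, rfl⟩
    rw [dleWJ_hecke K p hpK hp0 hℓ hℓK x (htor' x hx), heig ℓ hℓ hℓK hgood hℓp x hx, map_zsmul]
  · rintro _ ⟨x, hx, rfl⟩
    rw [dleWJ_pushA K p hpK hp0 x (htor' x hx), hB x hx]
  · rintro _ ⟨x, hx, rfl⟩
    rw [dleWJ_pushB K p hpK hp0 x (htor' x hx), hA x hx]

end WSide

end Fermat.Agent.Delta
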