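/-
DELTA / I6, package (END), part (WS2) (helper3): **the Atkin–Lehner involution on all of `J₀(N' p)`**
(no torsion hypothesis): `W ∘ W = id`, `β_* ∘ W = α_*`, `α_* ∘ W = β_*` on divisor classes, and the
instance `DlwWSide 𝔓 K hK (dleWJ K 𝔓.p hK)` consumed by `dlw_final_core` (Wire/Final.lean).

General part: for an involutive automorphism `W` of a function field `F / K`, the pull-back of
divisors along `W` is `D ↦ D ∘ (restriction along W)` (all ramification indices are one), an
involution; and `ψ_* ∘ W^* = φ_*` whenever `ψ = W ∘ φ` (all residue degrees being one).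
-/
import Mathlib
import Fermat.Agent.Lib.Delta.End.WSide
import Fermat.Agent.Lib.Delta.Wire.Final

set_option autoImplicit false
set_option linter.unusedSectionVars false
set_option linter.unusedVariables false
set_option linter.style.haveILetI false
set_option synthInstance.maxHeartbeats 400000

namespace Fermat.Agent.Delta

open AlgebraicCurve ModularCurve Fermat.Agent.Curve Fermat.Agent.T1 Fermat.Agent.T3
  Fermat.Agent.Alpha Fermat.Agent.T2 HahnSeries Fermat.Agent.S24Lib Fermat.Agent.T1.KMod
  Fermat.Agent.TW Fermat.Agent.S33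

local notation "Qb" => AlgebraicClosure ℚ
local notation "GQ" => (AlgebraicClosure ℚ ≃ₐ[ℚ] AlgebraicClosure ℚ)

noncomputable section

/-! ### Involutive automorphisms of a function field -/

section General

variable {K F F₀ : Type*} [Field K] [Field F] [Field F₀] [Algebra K F] [Algebra K F₀]
  (W : F →ₐ[K] F) (hW : W.toRingHom.IsIntegral) (hinv : ∀ x : F, W (W x) = x)

include hinv in
theorem dle_restrictAlong_invol (w : Place K F) :
    (w.restrictAlong W hW).restrictAlong W hW = w := by
  apply Place.ext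
  ext f
  rw [t3p_mem_restrictAlong, t3p_mem_restrictAlong, hinv]

include hinv in
theorem dle_restrictAlong_invol_eq_iff (v w : Place K F) :
    v = w.restrictAlong W hW ↔ v.restrictAlong W hW = w := by
  constructor
  · rintro rfl
    exact dle_restrictAlong_invol W hW hinv w
  · rintro rfl
    exact (dle_restrictAlong_invol W hW hinv v).symm

include hW hinv in
theorem dle_ramificationIndexAlong_invol (w : Place K F) : w.ramificationIndexAlong W = 1 := by
  obtain ⟨f, -, hf⟩ := t3p_exists_ord_eq_one w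
  have h1 := Place.ord_restrictAlong W hW w (W f)
  rw [hinv, hf] at h1
  have h2 : ((w.ramificationIndexAlong W : ℕ) : ℤ) ∣ 1 := ⟨_, h1⟩
  have h3 : (w.ramificationIndexAlong W : ℕ) ∣ 1 := by exact_mod_cast h2
  exact Nat.dvd_one.mp h3

variable [HasPrincipalDivisors K F]

include hinv in
theorem dle_pullbackAlong_invol_apply (D : Divisor K F) (w : Place K F) :
    Divisor.pullbackAlong W hW D w = D (w.restrictAlong W hW) := by
  rw [Divisor.pullbackAlong_apply, dle_ramificationIndexAlong_invol W hW hinv w, Nat.cast_one,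
    one_mul]

include hinv in
theorem dle_pullbackAlong_invol (D : Divisor K F) :
    Divisor.pullbackAlong W hW (Divisor.pullbackAlong W hW D) = D := by
  ext w
  rw [dle_pullbackAlong_invol_apply W hW hinv, dle_pullbackAlong_invol_apply W hW hinv,
    dle_restrictAlong_invol W hW hinv]

include hinv in
theorem dle_pullbackAlong_invol_single (v : Place K F) (n : ℤ) :
    Divisor.pullbackAlong W hW (Finsupp.single v n : Divisor K F) =
      (Finsupp.single (v.restrictAlong W hW) n : Divisor K F) := by
  classical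
  ext w
  rw [dle_pullbackAlong_invol_apply W hW hinv, Finsupp.single_apply, Finsupp.single_apply]
  by_cases h : v = w.restrictAlong W hW
  · rw [if_pos h, if_pos ((dle_restrictAlong_invol_eq_iff W hW hinv v w).mp h)]
  · rw [if_neg h, if_neg (fun h' => h ((dle_restrictAlong_invol_eq_iff W hW hinv v w).mpr h'))]

include hinv in
/-- `ψ_* ∘ W^* = φ_*` for `ψ = W ∘ φ` -/
theorem dle_pushforwardAlong_invol (φ ψ : F₀ →ₐ[K] F) (hφ : φ.toRingHom.IsIntegral)
    (hψ : ψ.toRingHom.IsIntegral) (hWφ : ∀ x : F₀, W (φ x) = ψ x)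
    (hfφ : ∀ w : Place K F, w.inertiaDegAlong φ hφ = 1)
    (hfψ : ∀ w : Place K F, w.inertiaDegAlong ψ hψ = 1) (D : Divisor K F) :
    Divisor.pushforwardAlong ψ hψ (Divisor.pullbackAlong W hW D) =
      Divisor.pushforwardAlong φ hφ D := by
  have key : (Divisor.pushforwardAlong ψ hψ).comp (Divisor.pullbackAlong W hW) =
      Divisor.pushforwardAlong φ hφ := by
    apply Finsupp.addHom_ext
    intro v n
    show Divisor.pushforwardAlong ψ hψ (Divisor.pullbackAlong W hW (Finsupp.single v n)) =
      Divisor.pushforwardAlong φ hφ (Finsupp.single v n)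
    rw [dle_pullbackAlong_invol_single W hW hinv, Divisor.pushforwardAlong_single,
      Divisor.pushforwardAlong_single, hfφ, hfψ]
    congr 1
    apply Place.ext
    ext f
    rw [t3p_mem_restrictAlong, t3p_mem_restrictAlong, t3p_mem_restrictAlong, ← hWφ, hinv]
  exact DFunLike.congr_fun key D

end General

/-! ### The modular instance -/

section Modular

variable (N' p : ℕ) [NeZero N'] [hp : Fact p.Prime] (h : ¬ p ∣ N')

/-- **`W ∘ W = id`** on `J₀(N' p)` -/
theorem dleWJ_invol (x : JZero (N' * p)) : dleWJ N' p h (dleWJ N' p h x) = x := by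
  obtain ⟨D, rfl⟩ := Pic0.mk_surjective x
  unfold dleWJ
  rw [t3pPullAlong_mk, t3pPullAlong_mk]
  apply congrArg Pic0.mk
  apply Subtype.ext
  exact dle_pullbackAlong_invol _ (dle_w_integral N' p h) (fun y => t2w_t2w Qb N' p h y) _

theorem dleWJ_injective : Function.Injective (dleWJ N' p h) := by
  intro x y hxy
  rw [← dleWJ_invol N' p h x, hxy, dleWJ_invol]

/-- **`β_* ∘ W = α_*`** on `J₀(N' p)` -/
theorem dleWJ_pushB_all (x : JZero (N' * p)) :
    dlwPushB N' p (dleWJ N' p h x) = dlwPushA N' p x := by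
  obtain ⟨D, rfl⟩ := Pic0.mk_surjective x
  have h1 : dleWJ N' p h (Pic0.mk D) = Pic0.mk ⟨Divisor.pullbackAlong _ (dle_w_integral N' p h)
      (D : Divisor Qb _), Divisor.pullbackAlong_mem_degZero _ _ (dle_w_fundamental N' p h) D.2⟩ :=
    rfl
  rw [h1]
  refine (dlwPushAlong_mk (heckeBetaBar Qb N' p) (t3h_betaIntegral N' p) (t3h_betaFinite N' p)
    (t3h_betaNorm N' p) _).trans (Eq.trans ?_ (dlwPushAlong_mk (heckeAlphaBar Qb N' p)
    (t3h_alphaIntegral N' p) (t3h_alphaFinite N' p) (t3h_alphaNorm N' p) D).symm)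
  apply congrArg Pic0.mk
  apply Subtype.ext
  exact dle_pushforwardAlong_invol _ (dle_w_integral N' p h) (fun y => t2w_t2w Qb N' p h y)
    (heckeAlphaBar Qb N' p) (heckeBetaBar Qb N' p) (t3h_alphaIntegral N' p) (t3h_betaIntegral N' p)
    (fun y => t2w_alpha Qb N' p h y)
    (fun w => t3h_inertiaDegAlong_eq_one (t3h_gen (N' * p)) _ _ w)
    (fun w => t3h_inertiaDegAlong_eq_one (t3h_gen (N' * p)) _ _ w) _

/-- **`α_* ∘ W = β_*`** on `J₀(N' p)` -/
theorem dleWJ_pushA_all (x : JZero (N' * p)) :
    dlwPushA N' p (dleWJ N' p h x) = dlwPushB N' p x := by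
  rw [← dleWJ_pushB_all N' p h (dleWJ N' p h x), dleWJ_invol]

end Modular

/-! ### The instance of `DlwWSide` -/

section Inst

attribute [local instance] t2gp_fact
attribute [local instance] s33g_neZero
attribute [local instance] dlw_neZero_p

/-- **(W)** of `Wire/Final.lean` -/
theorem dle_wside_inst (𝔓 : FFPlace) (K : ℕ) [NeZero K] (hK : ¬ 𝔓.p ∣ K) :
    DlwWSide 𝔓 K hK (dleWJ K 𝔓.p hK) where
  inj := fun x _ hx => dleWJ_injective K 𝔓.p hK (by rw [hx, map_zero])
  galois := dleWJ_galois K 𝔓.p hK
  cls := fun Y hY => dleWJ_class K 𝔓.p hK 𝔓.hp.ne_zero Y hY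
  pushA := fun x _ => dleWJ_pushA_all K 𝔓.p hK x
  pushB := fun x _ => dleWJ_pushB_all K 𝔓.p hK x

end Inst

end

end Fermat.Agent.Delta
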